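import Fermat.Agent.LLv.Main
import Fermat.Agent.LLw.FreyD

/-!
# Level lowering at `p` for Frey curves
-/

set_option autoImplicit false

noncomputable section

namespace Fermat.Agent.LLv

theorem mainJ' : LLw.MainJ :=
  fun {_ _} _ _ _ hpN h13 {_} _ _ _ hdim hirr KE hKE hE S hpS hS a frE {_} hA {_} hζ {_ _} he hx
    hIe hIx J₀ β hJx H {_} hc0 hpc hcT =>
    mainJ hpN h13 hdim hirr KE hKE hE S hpS hS a frE hA hζ he hx hIe hIx J₀ β hJx H hc0 hpc hcT

/-- **Level lowering at `p`**, for Frey curves. -/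
theorem loweringAtPFrey : Final.LoweringAtPFrey := LLw.loweringAtPFrey_of mainJ'

end Fermat.Agent.LLv
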