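import Fermat.Agent.LLv.FixRep
import Fermat.Agent.LLc.RatQb
import Fermat.Agent.LLn.Conc
import Fermat.Agent.ZLoc2.HasU

/-!
# The main theorem on `X₀(N p)` at `p`
-/

set_option autoImplicit false
set_option linter.unusedSectionVars false
set_option maxHeartbeats 2000000

noncomputable section

open AlgebraicCurve Module IntermediateField ModularCurve HahnSeries

attribute [-instance] Fermat.Agent.X0Places.ffField Fermat.Agent.X0Places.ffAlgebra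

namespace Fermat.Agent.LLv

open Fermat.Agent.BadRed Fermat.Agent.LLp Fermat.Agent.LLu Fermat.Agent.LLc
open Fermat.Agent.FunField Fermat.Agent.FunField.PlaceLemmas Fermat.Agent.Deuring
open Fermat.Agent.Igusa Fermat.Agent.AtkinLehner Fermat.Agent.HeckeRed
open Fermat.Agent.MzCusp (uL uL_ne_zero)
open Fermat.Agent.ZLoc2 (IsCoef)

local notation "Qb" => AlgebraicClosure ℚ
local notation "GQ" => (AlgebraicClosure ℚ ≃ₐ[ℚ] AlgebraicClosure ℚ)

section Slope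

variable {L k : Type*} [Field L] [Field k]
variable {F F₁ : Type*} [Field F] [Field F₁] [Algebra L F] [Algebra k F₁] {T : TwoVal L k F F₁}

theorem isVl_of_er {A : ValuationSubring L} {π : A →+* k} {V : ResVal A π F F₁} {c : L}
    (hc : c ≠ 0) {f : F} {b : F₁} (hb : b ≠ 0) (h : V.ER (c • f) b) : IsVl V f c := by
  obtain ⟨h1, h2⟩ := h
  exact ⟨hc, h1, by rw [h2]; exact hb⟩

theorem hasRes_of_er {A : ValuationSubring L} {π : A →+* k} {V : ResVal A π F F₁} {c : L}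
    (hc : c ≠ 0) {f : F} {b : F₁} (h : V.ER (c • f) b) : V.HasRes f b := by
  obtain ⟨h1, h2⟩ := h
  exact ⟨c, hc, h1, h2⟩

/-- residues and scales from a slope -/
theorem of_slopeAt {ϖ : L} (hϖ : ϖ ≠ 0) {u : F} {s : ℤ} {x₁ x₂ : F₁}
    (h : T.SlopeAt ϖ u s x₁ x₂) :
    T.V₁.HasRes u x₁ ∧ T.V₂.HasRes u x₂ ∧ ∃ υ₁ υ₂ : L, IsVl T.V₁ u υ₁ ∧ IsVl T.V₂ u υ₂ ∧
      T.A.valuation υ₂ = T.A.valuation υ₁ * T.A.valuation ϖ ^ (-s) := by
  obtain ⟨h1, h2, c, hc, h3, h4⟩ := h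
  have hc' : c * (ϖ ^ s)⁻¹ ≠ 0 := mul_ne_zero hc (inv_ne_zero (zpow_ne_zero _ hϖ))
  refine ⟨hasRes_of_er hc h3, hasRes_of_er hc' h4, c, _, isVl_of_er hc h1 h3,
    isVl_of_er hc' h2 h4, ?_⟩
  rw [map_mul, map_inv₀, map_zpow₀, zpow_neg]

end Slope

variable {κ : Type*} [Field κ] [IsAlgClosed κ]
  (A : ValuationSubring Qb) (π : A →+* κ) [IsLocalHom π] (hπ : Function.Surjective π)
  (harch : ArchA π)
  (N p : ℕ) [hp : Fact p.Prime] [hN : NeZero N] [CharP κ p] (hpN : ¬ p ∣ N)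
  (hg : genusFF κ (modularFunctionFieldFullC κ N) = genusFF Qb (modularFunctionFieldFullC Qb N))
  (d : CP.DecAut A π) (hd : CP.IsFrob d p)

/-- the order of the residue of the unit at affine places which are not nodes -/
theorem ord_ub_eq_zero (ι : Qb →+* ℂ)
    (ub : modularFunctionFieldFullC κ N) (hub : (ub : LaurentSeries κ) = uL κ p)
    {pl : (CP.pen A π hπ harch N p hpN hg d hd).Pt → Place κ (modularFunctionFieldFullC κ N)}
    (hpl : ∀ x, At (CP.pen A π hπ harch N p hpN hg d hd).toPencil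
      ((CP.pen A π hπ harch N p hpN hg d hd).frPt x) (pl x))
    (v : Place κ (modularFunctionFieldFullC κ N)) (hv : 0 ≤ v.ord (HeckeRed.jF κ N))
    (hne : ∀ x, pl x ≠ v) : v.ord ub = 0 := by
  have i0 : NeZero (N * p) := ⟨mul_ne_zero (NeZero.ne N) hp.out.ne_zero⟩
  have H := CP.pen_hyp A π hπ harch N p hpN hg d hd
  set P := CP.pen A π hπ harch N p hpN hg d hd with hP
  have hub0 : ub ≠ 0 := by
    rintro rfl
    exact uL_ne_zero p κ hub.symm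
  have hEb : P.Eb v = 0 := by
    rw [P.hEb, CP.pen_tb, ord_pow]
    have : 0 ≤ ((1 + p : ℕ) : ℤ) * v.ord (HeckeRed.jF κ N) :=
      mul_nonneg (Int.natCast_nonneg _) hv
    exact max_eq_left (by linarith)
  obtain ⟨c, h1, h2⟩ := LLn.u0_mem_rr ι A π hπ harch N p hpN P (CP.pen_t A π hπ harch N p hpN hg d hd)
  obtain ⟨hr1, -, -⟩ := of_slopeAt (Nat.cast_ne_zero.mpr hp.out.ne_zero)
    (LLn.slopeAt_u0 ι A π hπ harch N p hpN ub hub)
  have h3 := LLp.pole_bound₁ P H harch hpl h1 hub0 hr1 hne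
  have h4 := LLp.pole_bound₁ P H harch hpl h2 (inv_ne_zero hub0) (hr1.inv hub0) hne
  rw [hEb, mul_zero, neg_zero] at h3 h4
  rw [v.ord_inv] at h4
  omega


section DU

variable {L : Type*} [Field L] [IsAlgClosed L] [CharZero L] (N r : ℕ) [hr : Fact r.Prime]
  [hN : NeZero N] (hrN : ¬ r ∣ N)

/-- the operator `dU` on classes killed by the push-forward -/
theorem lin_dUU {D : Divisor L (modularFunctionFieldFullC L (N * r))}
    (h : Lin (Degen.push (alpha1 L N r) (SemilinearAut.ofAlgAut (ww L N r hrN) • D)) 0) :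
    Lin (dUU N r hrN D) (-(SemilinearAut.ofAlgAut (ww L N r hrN) • D)) := by
  obtain ⟨g, hg⟩ := h
  rw [sub_zero] at hg
  obtain ⟨hg0, hg1⟩ := isDiv_iff.1 hg
  refine ⟨alpha1 L N r g, ?_⟩
  rw [dUU_apply, ZLoc2.pull_equiv, hg1, Degen.pull_divOf]
  have : (divOf (alpha1 L N r g) : Divisor L (modularFunctionFieldFullC L (N * r))) -
      SemilinearAut.ofAlgAut (ww L N r hrN) • D - -(SemilinearAut.ofAlgAut (ww L N r hrN) • D) =
      divOf (alpha1 L N r g) := by abel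
  rw [this]
  exact isDiv_iff.2 ⟨by rwa [Ne, map_eq_zero], rfl⟩

theorem sg_dUU {D : Divisor L (modularFunctionFieldFullC L (N * r))}
    (h : Lin (Degen.push (alpha1 L N r) (SemilinearAut.ofAlgAut (ww L N r hrN) • D)) 0)
    (hw : Sg (SemilinearAut.ofAlgAut (ww L N r hrN) • D) D) : Sg (dUU N r hrN D) D := by
  have h1 := lin_dUU N r hrN h
  rcases hw with hw | hw
  · exact Or.inr (h1.trans hw.neg)
  · refine Or.inl (h1.trans ?_)
    have := hw.neg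
    rwa [neg_neg] at this

end DU

include hπ harch hpN hg hd in
theorem core₁ (ι : Qb →+* ℂ) (h12 : 12 < p) {ζ : A} (hζ : IsPrimitiveRoot (ζ : Qb) p)
    (hA : A.LiesOverPrime p)
    {J₀ : Subgroup GQ} {β : Qb} (K : KHyp A p J₀ (A.valuation ((ζ : Qb) - 1)) β)
    {De D : Divisor Qb (modularFunctionFieldFullC Qb (N * p))}
    {fe f : modularFunctionFieldFullC Qb (N * p)}
    (hfe : IsDiv (p • De) fe) (hf : IsDiv (p • D) f)
    (hwe : Sg (SemilinearAut.ofAlgAut (ww Qb N p hpN) • De) De)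
    (hw : Sg (SemilinearAut.ofAlgAut (ww Qb N p hpN) • D) D)
    (hαe : Lin (Degen.push (alpha1 Qb N p) (SemilinearAut.ofAlgAut (ww Qb N p hpN) • De)) 0)
    (hα : Lin (Degen.push (alpha1 Qb N p) (SemilinearAut.ofAlgAut (ww Qb N p hpN) • D)) 0)
    (hse : ∀ s ∈ A.inertiaSubgroupIn ℚ, ∀ k : ℕ, s (ζ : Qb) = (ζ : Qb) ^ k →
      ∀ g : SemilinearAut Qb (modularFunctionFieldFullC Qb (N * p)),
        IsCoef g (s : Qb →+* Qb) → Lin (g • De) (k • De))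
    (hs : ∀ s ∈ A.inertiaSubgroupIn ℚ, ∀ g : SemilinearAut Qb (modularFunctionFieldFullC Qb (N * p)),
      IsCoef g (s : Qb →+* Qb) → ∃ b : ℕ, Lin (g • D) (D + b • De))
    (hJ : ∀ s ∈ J₀, ∀ g : SemilinearAut Qb (modularFunctionFieldFullC Qb (N * p)),
      IsCoef g (s : Qb →+* Qb) → g • D = D)
    (hind : ∀ a b : ℤ, Lin (a • D) (b • De) → (p : ℤ) ∣ a)
    (ub : modularFunctionFieldFullC κ N) (hub : (ub : LaurentSeries κ) = uL κ p) :
    ∃ f' : modularFunctionFieldFullC Qb (N * p), IsDiv (p • D) f' ∧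
      ∃ fb : modularFunctionFieldFullC κ N, fb ≠ 0 ∧
      (twoVal A π hπ harch N p hpN).V₁.ER f' fb ∧
      (∀ (c : κ) (b : modularFunctionFieldFullC κ N), fb ≠ c • b ^ p) ∧
      ∃ j₀ : ℤ, (∀ v : Place κ (modularFunctionFieldFullC κ N), 0 ≤ v.ord (HeckeRed.jF κ N) →
          (p : ℤ) ∣ v.ord fb - j₀ * v.ord ub) ∧
        ∀ v : Place κ (modularFunctionFieldFullC κ N), v.ord (HeckeRed.jF κ N) < 0 →
          (p : ℤ) ∣ v.ord fb := by
  have i0 : NeZero (N * p) := ⟨mul_ne_zero (NeZero.ne N) hp.out.ne_zero⟩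
  have hp0 : (p : Qb) ≠ 0 := Nat.cast_ne_zero.mpr hp.out.ne_zero
  have hp2 : p ≠ 2 := by omega
  have H := CP.pen_hyp A π hπ harch N p hpN hg d hd
  have hub0 : ub ≠ 0 := by
    rintro rfl
    exact uL_ne_zero p κ hub.symm
  -- the data
  let Λ : LamData (twoVal A π hπ harch N p hpN).toRData p :=
    lamData (𝔇 := (twoVal A π hπ harch N p hpN).toRData) hp.out inferInstance hζ
  have eΛ : ((Λ.lam : A) : Qb) = (ζ : Qb) - 1 := by
    show (((ζ - 1 : A)) : Qb) = _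
    push_cast
    rfl
  have K' : KHyp A p J₀ (A.valuation ((Λ.lam : A) : Qb)) β := by rw [eΛ]; exact K
  obtain ⟨s₀, hs₀, hs₀ζ⟩ := exists_inertia_ne hp.out hp2 hA hζ
  let R := ratDataX A π hπ harch N p hpN hg d hd (Λ := Λ) K'
  let ID : InData R := inDataX A π hπ harch N p hpN hg d hd hζ K' hs₀ hs₀ζ
  have hJ' : ∀ s ∈ R.J, s • D = D := by
    rintro s ⟨_, ⟨s', hs', rfl⟩, hg'⟩
    exact hJ s' hs' s hg'
  obtain ⟨f₂, hf₂, hf₂J⟩ := R.rf (p • D) f hf (fun s hs => by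
    have h1 : s • (p • D) = p • (s • D) :=
      map_nsmul (DistribSMul.toAddMonoidHom (Divisor Qb _) s) p D
    rw [h1, hJ' s hs])
  have hse' : ∀ s ∈ R.I, Lin (s • De) (ID.χ s • De) := by
    rintro s ⟨_, ⟨s', hs', rfl⟩, hg'⟩
    have h1 := cycExp_spec hζ s
    rw [baseAut_of_coef hg'] at h1
    exact hse s' hs' _ h1 s hg'
  have hs' : ∀ s ∈ R.I, ∃ b : ℕ, Lin (s • D) (D + b • De) := by
    rintro s ⟨_, ⟨s', hs', rfl⟩, hg'⟩
    exact hs s' hs' s hg'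
  have hUe : Sg ((uData A π hπ harch N p hpN).dU De) De := sg_dUU N p hpN hαe hwe
  have hU : Sg ((uData A π hπ harch N p hpN).dU D) D := sg_dUU N p hpN hα hw
  set P := CP.pen A π hπ harch N p hpN hg d hd with hP
  obtain ⟨hfin, -, -⟩ := P.structure_fibre H.hRR H.hRR₁ H.hpos
  have i3 := Fintype.ofFinite P.Pt
  choose pl₁ hpl₁ using fun x : P.Pt => exists_at (p := P.toPencil) H.hpos (P.frPt x)
  choose pl₂ hpl₂ using fun x : P.Pt => exists_at (p := P.toPencil) H.hpos x.1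
  have key : ∀ (u : modularFunctionFieldFullC Qb (N * p)) (b₁ b₂ : modularFunctionFieldFullC κ N)
      (s : ℤ) (c : ℕ), (twoVal A π hπ harch N p hpN).SlopeAt (p : Qb) u s b₁ b₂ →
      u⁻¹ ∈ riemannRochSpace (c • P.E) → (∀ x, ¬ (p : ℤ) ∣ (pl₁ x).ord b₁) →
      (∀ x, ¬ (p : ℤ) ∣ (pl₂ x).ord b₂) →
      0 ≤ ∑ x, (pl₁ x).ord b₁ + ∑ x, (pl₂ x).ord b₂ → ¬ (p : ℤ) ∣ -s →
      ∃ a₁ : modularFunctionFieldFullC κ N, a₁ ≠ 0 ∧
        (twoVal A π hπ harch N p hpN).V₁.HasRes f₂ a₁ ∧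
        (∀ (c : κ) (b : modularFunctionFieldFullC κ N), a₁ ≠ c • b ^ p) ∧
        (∀ v, (∀ x, pl₁ x ≠ v) → (p : ℤ) ∣ v.ord a₁) ∧
        ∃ j < p, ∀ x, (p : ℤ) ∣ (pl₁ x).ord a₁ - j * (pl₁ x).ord b₁ := by
    intro u b₁ b₂ s c hsl hu hδ₁ hδ₂ hΔ hns
    obtain ⟨hr₁, hr₂, υ₁, υ₂, hυ₁, hυ₂, hυ⟩ := of_slopeAt hp0 hsl
    exact main_abs ID harch hp.out H (hr2_conc N p K') hpl₁ hpl₂ hfe hUe hwe hse' hf₂ hf₂J hU hw
      hs' hind hsl.ne_zero hu hsl.1 hsl.2.1 hr₁ hr₂ hδ₁ hδ₂ hΔ hυ₁ hυ₂ hns hυ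
  -- orders at the nodes
  have hnode := fun x : P.Pt => LLn.node_order_qbar ι A π hπ harch N p hpN hA hg d hd ub hub x
  have o₁ : ∀ x, 1 ≤ (pl₁ x).ord ub ∧ (pl₁ x).ord ub ≤ 12 := fun x => (hnode x).1 _ (hpl₁ x)
  have o₂ : ∀ x, 1 ≤ (pl₂ x).ord ub ∧ (pl₂ x).ord ub ≤ 12 := fun x => (hnode x).2 _ (hpl₂ x)
  have nd : ∀ z : ℤ, 1 ≤ z ∧ z ≤ 12 → ¬ (p : ℤ) ∣ z := by
    rintro z ⟨h1, h2⟩ h3
    have := Int.le_of_dvd (by omega) h3
    omega
  have hsl := LLn.slopeAt_u0 ι A π hπ harch N p hpN ub hub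
  obtain ⟨c, hc1, hc2⟩ := LLn.u0_mem_rr ι A π hπ harch N p hpN P
    (CP.pen_t A π hπ harch N p hpN hg d hd)
  -- the conclusion
  have fin : ∀ a₁ : modularFunctionFieldFullC κ N, a₁ ≠ 0 →
        (twoVal A π hπ harch N p hpN).V₁.HasRes f₂ a₁ →
        (∀ (c : κ) (b : modularFunctionFieldFullC κ N), a₁ ≠ c • b ^ p) →
        (∀ v, (∀ x, pl₁ x ≠ v) → (p : ℤ) ∣ v.ord a₁) → ∀ j₀ : ℤ,
        (∀ x, (p : ℤ) ∣ (pl₁ x).ord a₁ - j₀ * (pl₁ x).ord ub) →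
        ∃ f' : modularFunctionFieldFullC Qb (N * p), IsDiv (p • D) f' ∧
      ∃ fb : modularFunctionFieldFullC κ N, fb ≠ 0 ∧
      (twoVal A π hπ harch N p hpN).V₁.ER f' fb ∧
      (∀ (c : κ) (b : modularFunctionFieldFullC κ N), fb ≠ c • b ^ p) ∧
      ∃ j₀ : ℤ, (∀ v : Place κ (modularFunctionFieldFullC κ N), 0 ≤ v.ord (HeckeRed.jF κ N) →
          (p : ℤ) ∣ v.ord fb - j₀ * v.ord ub) ∧
        ∀ v : Place κ (modularFunctionFieldFullC κ N), v.ord (HeckeRed.jF κ N) < 0 →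
          (p : ℤ) ∣ v.ord fb := by
    rintro a₁ ha₁ ⟨c, hc, hcO, hcr⟩ hnp haway j₀ hj₀
    refine ⟨c • f₂, ?_, a₁, ha₁, ⟨hcO, hcr⟩, hnp, j₀, fun v hv => ?_, fun v hv => haway v ?_⟩
    · have h1 := (IsDiv.const (F := modularFunctionFieldFullC Qb (N * p)) hc).mul hf₂
      rwa [zero_add, ← Algebra.smul_def] at h1
    · by_cases hne : ∀ x, pl₁ x ≠ v
      · rw [ord_ub_eq_zero A π hπ harch N p hpN hg d hd ι ub hub hpl₁ v hv hne, mul_zero, sub_zero]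
        exact haway v hne
      · push Not at hne
        obtain ⟨x, rfl⟩ := hne
        exact hj₀ x
    · rintro x rfl
      have h1 := (hpl₁ x).Eb_eq
      rw [P.hEb, CP.pen_tb, ord_pow] at h1
      have h2 : ((1 + p : ℕ) : ℤ) * (pl₁ x).ord (HeckeRed.jF κ N) < 0 :=
        mul_neg_of_pos_of_neg (by positivity) hv
      have h3 := le_max_right 0 (-(((1 + p : ℕ) : ℤ) * (pl₁ x).ord (HeckeRed.jF κ N)))
      omega
  by_cases hsum : 0 ≤ ∑ x, (pl₁ x).ord ub + ∑ x, (pl₂ x).ord ub⁻¹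
  · obtain ⟨a₁, ha₁, hr, hnp, haway, j, -, hj⟩ := key _ ub ub⁻¹ 12 c hsl hc2
      (fun x => nd _ (o₁ x)) (fun x => by rw [Place.ord_inv, dvd_neg]; exact nd _ (o₂ x)) hsum
      (by rw [dvd_neg]; exact nd 12 ⟨by norm_num, le_refl _⟩)
    exact fin a₁ ha₁ hr hnp haway j hj
  · have hsum' : 0 ≤ ∑ x, (pl₁ x).ord ub⁻¹ + ∑ x, (pl₂ x).ord (ub⁻¹)⁻¹ := by
      simp only [Place.ord_inv, inv_inv, Finset.sum_neg_distrib] at hsum ⊢
      omega
    obtain ⟨a₁, ha₁, hr, hnp, haway, j, -, hj⟩ := key _ ub⁻¹ (ub⁻¹)⁻¹ (-12) c hsl.inv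
      (by rw [inv_inv]; exact hc1)
      (fun x => by rw [Place.ord_inv, dvd_neg]; exact nd _ (o₁ x))
      (fun x => by rw [inv_inv]; exact nd _ (o₂ x)) hsum'
      (by rw [neg_neg]; exact nd 12 ⟨by norm_num, le_refl _⟩)
    refine fin a₁ ha₁ hr hnp haway (-j) fun x => ?_
    have := hj x
    rw [Place.ord_inv] at this
    have e : (pl₁ x).ord a₁ - -(j : ℤ) * (pl₁ x).ord ub =
      (pl₁ x).ord a₁ - j * -(pl₁ x).ord ub := by ring
    rw [e]
    exact this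

end Fermat.Agent.LLv
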