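import Fermat.Agent.LLv.Quad
import Fermat.Agent.Tate.JInput
import Fermat.Agent.Tate.Package
import Fermat.Agent.Cusps.GenusFinal

/-!
# Embedding an irreducible Galois module in an eigenspace of the Jacobian
-/

set_option autoImplicit false

noncomputable section

open Module IsLocalRing Polynomial ModularCurve AlgebraicCurve

namespace Fermat.Agent.LLv

open Fermat.Agent.Tate

local notation "Qb" => AlgebraicClosure ℚ
local notation "GQ" => (AlgebraicClosure ℚ ≃ₐ[ℚ] AlgebraicClosure ℚ)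

variable {M p : ℕ} [NeZero M] [hp : Fact p.Prime]

theorem frobJ : FrobJ M p := frobJ_of_packages (hasPackages_of_genusEq (Fermat.Agent.Cusps.genusEq M))

theorem unrJ : UnrJ M p := unrJ_of_packages (hasPackages_of_genusEq (Fermat.Agent.Cusps.genusEq M))

theorem exists_levelJ (M p : ℕ) [NeZero M] [Fact p.Prime] :
    ∃ K : IntermediateField ℚ (AlgebraicClosure ℚ), FiniteDimensional ℚ K ∧
      ∀ σ : GQ, (∀ z ∈ K, σ z = z) → ∀ x : JZero M, p • x = 0 → σ • x = x := by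
  obtain ⟨K, hK, h⟩ := (jInput M p {q | q ∣ M} (fun q _ h => h) frobJ unrJ).exists_level 1
  refine ⟨K, hK, fun σ hσ x hx => h σ hσ x ?_⟩
  rw [pow_one]
  exact hx

theorem exists_embedding_J {E : Type} [AddCommGroup E] [Module (ZMod p) E] [DistribMulAction GQ E]
    (hp2 : p ≠ 2) (hdim : finrank (ZMod p) E = 2)
    (hirr : ∀ W : Submodule (ZMod p) E, (∀ g : GQ, ∀ x ∈ W, g • x ∈ W) → W = ⊥ ∨ W = ⊤)
    (KE : IntermediateField ℚ (AlgebraicClosure ℚ)) (hKE : FiniteDimensional ℚ KE)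
    (hE : ∀ σ : GQ, (∀ x ∈ KE, σ x = x) → ∀ v : E, σ • v = v)
    (V : AddSubgroup (JZero M)) (hV0 : ∃ c ∈ V, c ≠ 0) (hVp : ∀ c ∈ V, p • c = 0)
    (hVg : ∀ (σ : GQ), ∀ c ∈ V, σ • c ∈ V)
    (S : Finset ℕ) (hpS : p ∈ S) (hS : ∀ q : ℕ, q.Prime → q ∣ M → q ∈ S) (a : ℕ → ℤ)
    (hVT : ∀ c ∈ V, ∀ (ℓ : ℕ) (hℓ : ℓ.Prime), ℓ ∉ S → heckeOperatorBar M ⟨ℓ, hℓ⟩ c = a ℓ • c)
    (frE : ∀ ℓ : ℕ, ℓ.Prime → ℓ ∉ S → ∀ A : ValuationSubring (AlgebraicClosure ℚ),
      A.LiesOverPrime ℓ → ∀ τ : GQ, A.IsFrobeniusAt τ ℓ → ∀ v : E,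
        τ • τ • v - a ℓ • (τ • v) + ℓ • v = 0) :
    ∃ ι : E →+ JZero M, Function.Injective ι ∧ (∀ x, ι x ∈ V) ∧
      ∀ (g : GQ) (x : E), ι (g • x) = g • ι x := by
  let _ : Module (ZMod p) V := AddCommGroup.zmodModule (n := p) fun x => Subtype.ext (hVp x x.2)
  let _ : DistribMulAction GQ V :=
    { smul := fun g x => ⟨g • (x : JZero M), hVg g x x.2⟩
      one_smul := fun x => Subtype.ext (one_smul _ _)
      mul_smul := fun g h x => Subtype.ext (mul_smul _ _ _)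
      smul_zero := fun g => Subtype.ext (smul_zero _)
      smul_add := fun g x y => Subtype.ext (smul_add _ _ _) }
  have _ : Nontrivial V := by
    obtain ⟨c, hc, hc0⟩ := hV0
    exact ⟨⟨⟨c, hc⟩, 0, fun h => hc0 (congrArg Subtype.val h)⟩⟩
  obtain ⟨K, hK, hKV⟩ := exists_levelJ M p
  have hz : ∀ {X : Type} [AddCommGroup X] [Module (ZMod p) X] (z : ℤ) (x : X),
      ((z : ZMod p)) • x = z • x := fun z x => Int.cast_smul_eq_zsmul (ZMod p) z x
  have hn : ∀ {X : Type} [AddCommGroup X] [Module (ZMod p) X] (z : ℕ) (x : X),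
      ((z : ZMod p)) • x = z • x := fun z x => Nat.cast_smul_eq_nsmul (ZMod p) z x
  obtain ⟨⟨ι, hι, hιg⟩, -⟩ := exists_embedding_galois (E := E) (V := V) hp2 hdim hirr KE K hKE hK hE
    (fun σ hσ v => Subtype.ext (hKV σ hσ v (hVp v v.2))) S hpS (fun ℓ => (a ℓ : ZMod p))
    (fun ℓ hℓ hℓS A hA τ hτ v => by
      rw [hz, hn]
      exact frE ℓ hℓ hℓS A hA τ hτ v)
    (fun ℓ hℓ hℓS A hA τ hτ v => by
      rw [hz, hn]
      have h1 := frobJ (M := M) (p := p) ℓ hℓ (fun h => hℓS (hS ℓ hℓ h))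
        (fun h => hℓS (h ▸ hpS)) A hA τ hτ (v : JZero M) ⟨1, by rw [pow_one]; exact hVp v v.2⟩
      rw [hVT _ (hVg τ v v.2) ℓ hℓ hℓS] at h1
      exact Subtype.ext h1)
  refine ⟨V.subtype.comp ι.toAddMonoidHom, fun x y h => hι (Subtype.ext h), fun x => (ι x).2,
    fun g x => congrArg Subtype.val (hιg g x)⟩

/-- An irreducible two-dimensional module is not Eisenstein. -/
theorem not_eisenstein {E : Type} [AddCommGroup E] [Module (ZMod p) E] [DistribMulAction GQ E]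
    (hp2 : p ≠ 2) (hdim : finrank (ZMod p) E = 2)
    (hirr : ∀ W : Submodule (ZMod p) E, (∀ g : GQ, ∀ x ∈ W, g • x ∈ W) → W = ⊥ ∨ W = ⊤)
    (KE : IntermediateField ℚ (AlgebraicClosure ℚ)) (hKE : FiniteDimensional ℚ KE)
    (hE : ∀ σ : GQ, (∀ x ∈ KE, σ x = x) → ∀ v : E, σ • v = v)
    (S : Finset ℕ) (hpS : p ∈ S) (a : ℕ → ℤ)
    (frE : ∀ ℓ : ℕ, ℓ.Prime → ℓ ∉ S → ∀ A : ValuationSubring (AlgebraicClosure ℚ),
      A.LiesOverPrime ℓ → ∀ τ : GQ, A.IsFrobeniusAt τ ℓ → ∀ v : E,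
        τ • τ • v - a ℓ • (τ • v) + ℓ • v = 0)
    (ha : ∀ ℓ : ℕ, ℓ.Prime → ℓ ∉ S → (p : ℤ) ∣ a ℓ - (ℓ + 1)) : False := by
  let _ : DistribMulAction GQ (ZMod p) :=
    { smul := fun _ x => x
      one_smul := fun x => rfl
      mul_smul := fun g h x => rfl
      smul_zero := fun g => rfl
      smul_add := fun g x y => rfl }
  have hz : ∀ {X : Type} [AddCommGroup X] [Module (ZMod p) X] (z : ℤ) (x : X),
      ((z : ZMod p)) • x = z • x := fun z x => Int.cast_smul_eq_zsmul (ZMod p) z x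
  have hn : ∀ {X : Type} [AddCommGroup X] [Module (ZMod p) X] (z : ℕ) (x : X),
      ((z : ZMod p)) • x = z • x := fun z x => Nat.cast_smul_eq_nsmul (ZMod p) z x
  obtain ⟨⟨ι, hι, -⟩, -⟩ := exists_embedding_galois (E := E) (V := ZMod p) hp2 hdim hirr KE KE hKE
    hKE hE (fun σ hσ v => rfl) S hpS (fun ℓ => (a ℓ : ZMod p))
    (fun ℓ hℓ hℓS A hA τ hτ v => by
      rw [hz, hn]
      exact frE ℓ hℓ hℓS A hA τ hτ v)
    (fun ℓ hℓ hℓS A hA τ hτ v => by
      have h1 : ((a ℓ : ℤ) : ZMod p) = (ℓ : ZMod p) + 1 := by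
        have h2 := ha ℓ hℓ hℓS
        rw [← ZMod.intCast_zmod_eq_zero_iff_dvd] at h2
        push_cast at h2
        rw [sub_eq_zero] at h2
        exact h2
      have h3 : ∀ (g : GQ) (x : ZMod p), g • x = x := fun _ _ => rfl
      rw [h3, h3, h1, smul_eq_mul, smul_eq_mul]
      ring)
  have h4 := LinearMap.finrank_le_finrank_of_injective hι
  rw [hdim, Module.finrank_self] at h4
  omega

end Fermat.Agent.LLv
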