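import Mathlib

/-!
# Quadratic modules and a two-dimensional irreducible representation

A nonzero module `V` over a field of characteristic `≠ 2` on which `g + χ(g) g⁻¹ = tr ρ(g)`, where
`ρ` is a two-dimensional representation with determinant `χ` whose group algebra has image the full
matrix algebra, contains a copy of `ρ`.
-/

set_option autoImplicit false

noncomputable section

open Module

namespace Fermat.Agent.LLv

variable {k : Type*} [Field k] {G : Type*} [Group G] {E V : Type*} [AddCommGroup E] [Module k E]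
  [AddCommGroup V] [Module k V] (ρE : G →* Module.End k E) (ρV : G →* Module.End k V) (χ : G →* k)

/-- the span of the quadruples `(ρE g, ρV g, χ g ρE g⁻¹, χ g ρV g⁻¹)` -/
def quadSpan : Submodule k
    (Module.End k E × Module.End k V × Module.End k E × Module.End k V) :=
  Submodule.span k (Set.range fun g => (ρE g, ρV g, χ g • ρE g⁻¹, χ g • ρV g⁻¹))

variable {ρE ρV χ}

theorem quadSpan_mul {a c a' c' : Module.End k E} {b d b' d' : Module.End k V}
    (h : (a, b, a', b') ∈ quadSpan ρE ρV χ) (h' : (c, d, c', d') ∈ quadSpan ρE ρV χ) :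
    (a * c, b * d, c' * a', d' * b') ∈ quadSpan ρE ρV χ := by
  have key : ∀ x ∈ quadSpan ρE ρV χ, ∀ y ∈ quadSpan ρE ρV χ,
      (x.1 * y.1, x.2.1 * y.2.1, y.2.2.1 * x.2.2.1, y.2.2.2 * x.2.2.2) ∈ quadSpan ρE ρV χ := by
    intro x hx y hy
    induction hx, hy using Submodule.span_induction₂ with
    | mem_mem x y hx hy =>
      obtain ⟨g, rfl⟩ := hx
      obtain ⟨h, rfl⟩ := hy
      refine Submodule.subset_span ⟨g * h, ?_⟩
      simp only [map_mul, mul_inv_rev, smul_mul_smul_comm]
      rw [mul_comm (χ g) (χ h)]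
    | zero_left y hy =>
      have h0 : ((0, 0, 0, 0) : Module.End k E × Module.End k V × Module.End k E × Module.End k V) ∈
        quadSpan ρE ρV χ := Submodule.zero_mem (quadSpan ρE ρV χ)
      simpa using h0
    | zero_right x hx =>
      have h0 : ((0, 0, 0, 0) : Module.End k E × Module.End k V × Module.End k E × Module.End k V) ∈
        quadSpan ρE ρV χ := Submodule.zero_mem (quadSpan ρE ρV χ)
      simpa using h0
    | add_left x y z hx hy hz h1 h2 =>
      have := Submodule.add_mem _ h1 h2
      simpa [add_mul, mul_add] using this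
    | add_right x y z hx hy hz h1 h2 =>
      have := Submodule.add_mem _ h1 h2
      simpa [add_mul, mul_add] using this
    | smul_left r x y hx hy h1 =>
      have := Submodule.smul_mem _ r h1
      simpa using this
    | smul_right r x y hx hy h1 =>
      have := Submodule.smul_mem _ r h1
      simpa using this
  exact key _ h _ h'

theorem quadSpan_one : (1, 1, 1, 1) ∈ quadSpan ρE ρV χ := by
  refine Submodule.subset_span ⟨1, ?_⟩
  simp

theorem quadSpan_sub {a c a' c' : Module.End k E} {b d b' d' : Module.End k V}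
    (h : (a, b, a', b') ∈ quadSpan ρE ρV χ) (h' : (c, d, c', d') ∈ quadSpan ρE ρV χ) :
    (a - c, b - d, a' - c', b' - d') ∈ quadSpan ρE ρV χ := by
  have := Submodule.sub_mem _ h h'
  simpa using this

variable (hE : ∀ g, ρE g + χ g • ρE g⁻¹ = LinearMap.trace k E (ρE g) • (1 : Module.End k E))
  (hV : ∀ g, ρV g + χ g • ρV g⁻¹ = LinearMap.trace k E (ρE g) • (1 : Module.End k V))

include hE hV in
theorem quadSpan_trace {a a' : Module.End k E} {b b' : Module.End k V}
    (h : (a, b, a', b') ∈ quadSpan ρE ρV χ) :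
    a + a' = LinearMap.trace k E a • (1 : Module.End k E) ∧
      b + b' = LinearMap.trace k E a • (1 : Module.End k V) := by
  have key : ∀ x ∈ quadSpan ρE ρV χ,
      x.1 + x.2.2.1 = LinearMap.trace k E x.1 • (1 : Module.End k E) ∧
      x.2.1 + x.2.2.2 = LinearMap.trace k E x.1 • (1 : Module.End k V) := by
    intro x hx
    induction hx using Submodule.span_induction with
    | mem x hx =>
      obtain ⟨g, rfl⟩ := hx
      exact ⟨hE g, hV g⟩
    | zero => simp
    | add x y hx hy h1 h2 =>
      refine ⟨?_, ?_⟩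
      · rw [Prod.fst_add, Prod.snd_add, Prod.snd_add, Prod.fst_add, map_add, add_smul, ← h1.1,
          ← h2.1]
        abel
      · rw [Prod.fst_add, Prod.snd_add, Prod.snd_add, Prod.fst_add, Prod.snd_add, map_add,
          add_smul, ← h1.2, ← h2.2]
        abel
    | smul r x hx h1 =>
      refine ⟨?_, ?_⟩
      · rw [Prod.smul_fst, Prod.smul_snd, Prod.smul_snd, Prod.smul_fst, map_smul, smul_eq_mul,
          mul_smul, ← h1.1, smul_add]
      · rw [Prod.smul_fst, Prod.smul_snd, Prod.smul_fst, Prod.smul_snd, Prod.smul_snd, map_smul,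
          smul_eq_mul, mul_smul, ← h1.2, smul_add]
  exact key _ h

theorem exists_quadSpan (hs : Submodule.span k (Set.range ρE) = ⊤) (f : Module.End k E) :
    ∃ b a' b', (f, b, a', b') ∈ quadSpan ρE ρV χ := by
  have hf : f ∈ Submodule.span k (Set.range ρE) := by rw [hs]; trivial
  induction hf using Submodule.span_induction with
  | mem x hx =>
    obtain ⟨g, rfl⟩ := hx
    exact ⟨_, _, _, Submodule.subset_span ⟨g, rfl⟩⟩
  | zero => exact ⟨0, 0, 0, Submodule.zero_mem _⟩
  | add x y _ _ h1 h2 =>
    obtain ⟨b, a', b', h1⟩ := h1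
    obtain ⟨d, c', d', h2⟩ := h2
    exact ⟨b + d, a' + c', b' + d', by simpa using Submodule.add_mem _ h1 h2⟩
  | smul r x _ h1 =>
    obtain ⟨b, a', b', h1⟩ := h1
    exact ⟨r • b, r • a', r • b', by simpa using Submodule.smul_mem _ r h1⟩

include hE hV in
/-- the crucial uniqueness -/
theorem quadSpan_zero (h2 : (2 : k) ≠ 0) (hs : Submodule.span k (Set.range ρE) = ⊤)
    (hdim : finrank k E = 2) {b : Module.End k V} {a' : Module.End k E} {b' : Module.End k V}
    (h : (0, b, a', b') ∈ quadSpan ρE ρV χ) : b = 0 := by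
  -- the basic relations
  have hneg : ∀ {b : Module.End k V} {a' : Module.End k E} {b' : Module.End k V},
      (0, b, a', b') ∈ quadSpan ρE ρV χ → b' = -b := by
    intro b a' b' h
    have := (quadSpan_trace hE hV h).2
    rw [map_zero, zero_smul] at this
    exact eq_neg_of_add_eq_zero_right this
  have hcomm : ∀ {b : Module.End k V} {a' : Module.End k E} {b' : Module.End k V},
      (0, b, a', b') ∈ quadSpan ρE ρV χ → ∀ {c c' : Module.End k E} {d d' : Module.End k V},
        (c, d, c', d') ∈ quadSpan ρE ρV χ → d' * b = b * d := by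
    intro b a' b' h c c' d d' h'
    have h3 := quadSpan_mul h h'
    rw [zero_mul] at h3
    have h4 := hneg h3
    rw [hneg h] at h4
    rw [mul_neg, neg_inj] at h4
    exact h4
  have hkill : ∀ {b : Module.End k V} {a' : Module.End k E} {b' : Module.End k V},
      (0, b, a', b') ∈ quadSpan ρE ρV χ → ∀ {c c' : Module.End k E} {d d' : Module.End k V},
        (c, d, c', d') ∈ quadSpan ρE ρV χ → ∀ {e e' : Module.End k E} {f f' : Module.End k V},
          (e, f, e', f') ∈ quadSpan ρE ρV χ → b * (d * f - f * d) = 0 := by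
    intro b a' b' h c c' d d' hd e e' f f' hf
    have h3 := hcomm h (quadSpan_mul hf hd)
    have h4 : b * (d * f) = d' * f' * b := by
      rw [← mul_assoc, ← hcomm h hd, mul_assoc, ← hcomm h hf, mul_assoc]
    rw [mul_sub, h4, ← h3, sub_self]
  -- matrix units
  have : Module.Finite k E := Module.finite_of_finrank_eq_succ hdim
  let B : Basis (Fin 2) k E := finBasisOfFinrankEq k E hdim
  obtain ⟨d, c', d', hd⟩ := exists_quadSpan (ρV := ρV) (χ := χ) hs
    (Matrix.toLin B B !![0, 1; 0, 0])
  obtain ⟨f, e', f', hf⟩ := exists_quadSpan (ρV := ρV) (χ := χ) hs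
    (Matrix.toLin B B !![0, 0; 1, 0])
  have h5 := quadSpan_sub (quadSpan_mul hd hf) (quadSpan_mul hf hd)
  have h6 := quadSpan_sub (quadSpan_mul h5 h5) quadSpan_one
  have hone : (Matrix.toLin B B !![0, 1; 0, 0] * Matrix.toLin B B !![0, 0; 1, 0] -
      Matrix.toLin B B !![0, 0; 1, 0] * Matrix.toLin B B !![0, 1; 0, 0]) *
      (Matrix.toLin B B !![0, 1; 0, 0] * Matrix.toLin B B !![0, 0; 1, 0] -
      Matrix.toLin B B !![0, 0; 1, 0] * Matrix.toLin B B !![0, 1; 0, 0]) - 1 = 0 := by
    have h7 : ∀ M M' : Matrix (Fin 2) (Fin 2) k, Matrix.toLin B B M * Matrix.toLin B B M' =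
        Matrix.toLin B B (M * M') := fun M M' => (Matrix.toLin_mul B B B M M').symm
    have h8 : (1 : Module.End k E) = Matrix.toLin B B 1 := (Matrix.toLin_one B).symm
    rw [h7, h7, ← map_sub, h7, h8, ← map_sub]
    convert map_zero (Matrix.toLin B B) using 2
    ext i j
    fin_cases i <;> fin_cases j <;> simp [Matrix.mul_apply, Fin.sum_univ_two]
  rw [hone] at h6
  set σ : Module.End k V := (d * f - f * d) * (d * f - f * d) - 1 with hσ
  have hσ2 : σ * σ = 0 := by
    have h7 := quadSpan_mul h6 h6
    rw [zero_mul] at h7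
    have h8 := hneg h7
    rw [hneg h6, neg_mul_neg] at h8
    have h9 : (2 : k) • (σ * σ) = 0 := by
      rw [two_smul]
      nth_rw 1 [h8]
      rw [neg_add_cancel]
    exact (smul_eq_zero.mp h9).resolve_left h2
  have hmain : ∀ {b : Module.End k V} {a' : Module.End k E} {b' : Module.End k V},
      (0, b, a', b') ∈ quadSpan ρE ρV χ → b + b * σ = 0 := by
    intro b a' b' h
    have h7 := hkill h hd hf
    rw [hσ, mul_sub, mul_one, ← mul_assoc, h7, zero_mul]
    abel
  have hσ0 : σ = 0 := by
    have h7 := hmain h6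
    rwa [hσ2, add_zero] at h7
  have h7 := hmain h
  rwa [hσ0, mul_zero, add_zero] at h7

/-- rank one operators -/
def rk (φ : E →ₗ[k] k) (x : E) : Module.End k E := φ.smulRight x

theorem rk_apply (φ : E →ₗ[k] k) (x y : E) : rk φ x y = φ y • x := rfl

include hE hV in
/-- **Existence of an embedding.** -/
theorem exists_embedding (h2 : (2 : k) ≠ 0) (hs : Submodule.span k (Set.range ρE) = ⊤)
    (hdim : finrank k E = 2) [Nontrivial V] :
    ∃ ι : E →ₗ[k] V, Function.Injective ι ∧ ∀ g x, ι (ρE g x) = ρV g (ι x) := by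
  classical
  choose Φ a' b' hΦ using fun f : Module.End k E => exists_quadSpan (ρV := ρV) (χ := χ) hs f
  have huniq : ∀ {f : Module.End k E} {b b₁ : Module.End k V} {a' a₁' : Module.End k E}
      {b' b₁' : Module.End k V}, (f, b, a', b') ∈ quadSpan ρE ρV χ →
        (f, b₁, a₁', b₁') ∈ quadSpan ρE ρV χ → b = b₁ := by
    intro f b b₁ a' a₁' b' b₁' h h'
    have := quadSpan_sub h h'
    rw [sub_self] at this
    exact sub_eq_zero.mp (quadSpan_zero hE hV h2 hs hdim this)
  have hΦ1 : Φ 1 = 1 := huniq (hΦ 1) quadSpan_one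
  have hΦm : ∀ f g, Φ (f * g) = Φ f * Φ g := fun f g => huniq (hΦ _) (quadSpan_mul (hΦ f) (hΦ g))
  have hΦa : ∀ f g, Φ (f + g) = Φ f + Φ g := by
    intro f g
    have := Submodule.add_mem _ (hΦ f) (hΦ g)
    exact huniq (hΦ _) (by simpa using this)
  have hΦs : ∀ (r : k) f, Φ (r • f) = r • Φ f := by
    intro r f
    have := Submodule.smul_mem _ r (hΦ f)
    exact huniq (hΦ _) (by simpa using this)
  have hΦρ : ∀ g, Φ (ρE g) = ρV g := fun g => huniq (hΦ _) (Submodule.subset_span ⟨g, rfl⟩)
  have : Module.Finite k E := Module.finite_of_finrank_eq_succ hdim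
  let B : Basis (Fin 2) k E := finBasisOfFinrankEq k E hdim
  set v : E := B 0 with hv
  set φ : E →ₗ[k] k := B.coord 0 with hφ
  have hφv : φ v = 1 := by simp [hφ, hv]
  -- `Φ (rk φ v) ≠ 0`
  have hne : Φ (rk φ v) ≠ 0 := by
    intro h0
    have h1 : ∀ (ψ : E →ₗ[k] k) (x : E), Φ (rk ψ x) = 0 := by
      intro ψ x
      have h3 : rk ψ x = rk φ x * (rk φ v * rk ψ v) := by
        ext y
        simp [rk, hφv]
      rw [h3, hΦm, hΦm, h0, zero_mul, mul_zero]
    have h4 : (1 : Module.End k E) = rk (B.coord 0) (B 0) + rk (B.coord 1) (B 1) := by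
      ext y
      have := B.sum_repr y
      rw [Fin.sum_univ_two] at this
      simp only [LinearMap.add_apply, rk_apply, Module.End.one_apply, Basis.coord_apply]
      exact this.symm
    have h5 : (1 : Module.End k V) = 0 := by
      rw [← hΦ1, h4, hΦa, h1, h1, add_zero]
    exact one_ne_zero h5
  obtain ⟨w, hw⟩ : ∃ w, Φ (rk φ v) w ≠ 0 := by
    by_contra hcon
    push Not at hcon
    exact hne (LinearMap.ext hcon)
  set u : V := Φ (rk φ v) w with hu
  let ι : E →ₗ[k] V :=
    { toFun := fun x => Φ (rk φ x) u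
      map_add' := fun x y => by
        have : rk φ (x + y) = rk φ x + rk φ y := by ext z; simp [rk]
        rw [this, hΦa, LinearMap.add_apply]
      map_smul' := fun r x => by
        have : rk φ (r • x) = r • rk φ x := by
          ext z
          simp only [rk_apply, LinearMap.smul_apply]
          rw [smul_comm]
        rw [this, hΦs, LinearMap.smul_apply, RingHom.id_apply] }
  have hι : ∀ x, ι x = Φ (rk φ x) u := fun x => rfl
  have hequiv : ∀ (f : Module.End k E) x, ι (f x) = Φ f (ι x) := by
    intro f x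
    have : rk φ (f x) = f * rk φ x := by
      ext z
      simp only [rk_apply, Module.End.mul_apply, map_smul]
    rw [hι, hι, this, hΦm, Module.End.mul_apply]
  have hιv : ι v = u := by
    rw [hι, hu, ← Module.End.mul_apply, ← hΦm]
    congr 2
    ext z
    simp [rk, hφv]
  refine ⟨ι, ?_, fun g x => by rw [hequiv, hΦρ]⟩
  rw [injective_iff_map_eq_zero]
  intro x hx
  by_contra hx0
  obtain ⟨ψ, hψ⟩ : ∃ ψ : E →ₗ[k] k, ψ x ≠ 0 := by
    by_contra hcon
    push Not at hcon
    exact hx0 ((Module.forall_dual_apply_eq_zero_iff k x).mp hcon)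
  have h1 : rk ψ v x = ψ x • v := rk_apply _ _ _
  have h3 := hequiv (rk ψ v) x
  rw [hx, map_zero, h1, map_smul, hιv] at h3
  rcases smul_eq_zero.mp h3 with h4 | h4
  · exact hψ h4
  · exact hw h4

end Fermat.Agent.LLv
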