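import Fermat.Agent.LLv.Core

/-!
# The main theorem on `X₀(N p)` at `p`, in terms of divisor classes
-/

set_option autoImplicit false
set_option linter.unusedSectionVars false
set_option maxHeartbeats 1000000

noncomputable section

open AlgebraicCurve Module IntermediateField ModularCurve HahnSeries

attribute [-instance] Fermat.Agent.X0Places.ffField Fermat.Agent.X0Places.ffAlgebra

namespace Fermat.Agent.LLv

open Fermat.Agent.BadRed Fermat.Agent.LLp Fermat.Agent.LLu Fermat.Agent.LLc Fermat.Agent.Degen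
open Fermat.Agent.FunField Fermat.Agent.FunField.PlaceLemmas Fermat.Agent.Deuring
open Fermat.Agent.Igusa Fermat.Agent.AtkinLehner Fermat.Agent.HeckeRed
open Fermat.Agent.MzCusp (uL uL_ne_zero)
open Fermat.Agent.ZLoc2 (IsCoef IsAL)

local notation "Qb" => AlgebraicClosure ℚ
local notation "GQ" => (AlgebraicClosure ℚ ≃ₐ[ℚ] AlgebraicClosure ℚ)

section Cls

variable {L F : Type*} [Field L] [Field F] [Algebra L F]

theorem lin_zsmul_iff {A B : Divisor.degZero (K := L) (F := F)} (a b : ℤ) :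
    a • Pic0.mk A = b • Pic0.mk B ↔ Lin (a • (A : Divisor L F)) (b • (B : Divisor L F)) := by
  have h1 : a • Pic0.mk A = Pic0.mk (a • A) := rfl
  have h2 : b • Pic0.mk B = Pic0.mk (b • B) := rfl
  rw [h1, h2, mk_eq_mk_iff]
  rfl

theorem lin_smul_iff {A B : Divisor.degZero (K := L) (F := F)} (g : SemilinearAut L F) :
    g • Pic0.mk A = Pic0.mk B ↔ Lin (g • (A : Divisor L F)) (B : Divisor L F) :=
  mk_eq_mk_iff (A := SemilinearAut.degZeroSMulHom g A)

theorem exists_isDiv_of_nsmul {A : Divisor.degZero (K := L) (F := F)} {n : ℕ}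
    (h : n • Pic0.mk A = 0) : ∃ f, IsDiv (n • (A : Divisor L F)) f := by
  have h1 : n • Pic0.mk A = Pic0.mk (n • A) := rfl
  rw [h1, mk_eq_zero_iff] at h
  exact h

theorem sg_of_smul {A : Divisor.degZero (K := L) (F := F)} {g : SemilinearAut L F} {ε : ℤ}
    (hε : ε = 1 ∨ ε = -1) (h : g • Pic0.mk A = ε • Pic0.mk A) :
    Sg (g • (A : Divisor L F)) (A : Divisor L F) := by
  rcases hε with rfl | rfl
  · rw [one_smul, lin_smul_iff] at h
    exact Or.inl h
  · rw [neg_one_smul] at h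
    have h1 : -Pic0.mk A = Pic0.mk (-A) := rfl
    rw [h1, lin_smul_iff] at h
    exact Or.inr h

end Cls

variable {κ : Type*} [Field κ] [IsAlgClosed κ]
  (A : ValuationSubring Qb) (π : A →+* κ) [IsLocalHom π] (hπ : Function.Surjective π)
  (harch : ArchA π)
  (N p : ℕ) [hp : Fact p.Prime] [hN : NeZero N] [CharP κ p] (hpN : ¬ p ∣ N)
  (hg : genusFF κ (modularFunctionFieldFullC κ N) = genusFF Qb (modularFunctionFieldFullC Qb N))
  (d : CP.DecAut A π) (hd : CP.IsFrob d p)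

include hπ harch hpN hg hd in
/-- **The main theorem on classes.** -/
theorem core_E (ι : Qb →+* ℂ) (h12 : 12 < p) {ζ : A} (hζ : IsPrimitiveRoot (ζ : Qb) p)
    (hA : A.LiesOverPrime p)
    {J₀ : Subgroup GQ} {β : Qb} (K : KHyp A p J₀ (A.valuation ((ζ : Qb) - 1)) β)
    {E₀ E : IntermediateField Qb (LaurentSeries Qb)} [IsFF Qb E₀] [IsFF Qb E]
    (hE₀ : E₀ = modularFunctionFieldFullC Qb N) (hE : E = modularFunctionFieldFullC Qb (N * p))
    (α : E₀ →ₐ[Qb] E) (hα : ∀ x, (α x : LaurentSeries Qb) = x) (w : E ≃ₐ[Qb] E) (hw : IsAL N p w)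
    (gal : GQ → SemilinearAut Qb E) (hgal : ∀ σ, IsCoef (gal σ) (σ : Qb →+* Qb))
    {P : Place Qb E} (hP : ∀ σ, gal σ • P = P)
    {ce cx : Pic0 Qb E} (hpe : p • ce = 0) (hpx : p • cx = 0) {ε : ℤ} (hε : ε = 1 ∨ ε = -1)
    (hwe : SemilinearAut.ofAlgAut w • ce = ε • ce) (hwx : SemilinearAut.ofAlgAut w • cx = ε • cx)
    (hαe : pushPic α (SemilinearAut.ofAlgAut w • ce) = 0)
    (hαx : pushPic α (SemilinearAut.ofAlgAut w • cx) = 0)
    (hse : ∀ s ∈ A.inertiaSubgroupIn ℚ, ∀ k : ℕ, s (ζ : Qb) = (ζ : Qb) ^ k → gal s • ce = k • ce)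
    (hsx : ∀ s ∈ A.inertiaSubgroupIn ℚ, ∃ b : ℕ, gal s • cx = cx + b • ce)
    (hJ : ∀ s ∈ J₀, gal s • cx = cx)
    (hind : ∀ a b : ℤ, a • cx = b • ce → (p : ℤ) ∣ a)
    (ub : modularFunctionFieldFullC κ N) (hub : (ub : LaurentSeries κ) = uL κ p) :
    ∃ D : Divisor.degZero (K := Qb) (F := E), Pic0.mk D = cx ∧
      ∃ (f : E) (hf : (f : LaurentSeries Qb) ∈ gaussRing A π),
        (divOf f : Divisor Qb E) = (p : ℤ) • (D : Divisor Qb E) ∧
      ∃ fb : modularFunctionFieldFullC κ N, fb ≠ 0 ∧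
        (fb : LaurentSeries κ) = gaussRes A π ⟨f, hf⟩ ∧
      (∀ (c : κ) (b : modularFunctionFieldFullC κ N), fb ≠ c • b ^ p) ∧
      ∃ j₀ : ℤ, (∀ v : Place κ (modularFunctionFieldFullC κ N), 0 ≤ v.ord (HeckeRed.jF κ N) →
          (p : ℤ) ∣ v.ord fb - j₀ * v.ord ub) ∧
        ∀ v : Place κ (modularFunctionFieldFullC κ N), v.ord (HeckeRed.jF κ N) < 0 →
          (p : ℤ) ∣ v.ord fb := by
  subst hE₀ hE
  have i0 : NeZero (N * p) := ⟨mul_ne_zero (NeZero.ne N) hp.out.ne_zero⟩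
  have h1 : α = alpha1 Qb N p := AlgHom.ext fun x => Subtype.ext (by rw [hα, coe_alpha1])
  have h2 := ZLoc2.ww_eq N p hpN hw
  subst h1 h2
  obtain ⟨De, rfl⟩ := Pic0.mk_surjective ce
  obtain ⟨Dx, rfl⟩ := Pic0.mk_surjective cx
  -- uniqueness of the coefficientwise automorphism
  have huniq : ∀ (s : GQ) (g : SemilinearAut Qb (modularFunctionFieldFullC Qb (N * p))),
      IsCoef g (s : Qb →+* Qb) → g = gal s := by
    intro s g hg'
    have h3 : ∀ x : modularFunctionFieldFullC Qb (N * p), g • x = gal s • x := fun x =>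
      Subtype.ext ((hg' x).trans (hgal s x).symm)
    refine Subtype.ext (Prod.ext (RingEquiv.ext h3) (RingEquiv.ext fun a => ?_))
    have h4 := h3 (algebraMap Qb _ a)
    rw [SemilinearAut.smul_algebraMap, SemilinearAut.smul_algebraMap] at h4
    exact (algebraMap Qb (modularFunctionFieldFullC Qb (N * p))).injective h4
  -- a fixed representative
  obtain ⟨D, hD, hDJ⟩ := exists_fixed_rep (J := gal '' (J₀ : Set GQ)) (P := P)
    (by rintro _ ⟨s, -, rfl⟩; exact hP s) (A := (Dx : Divisor Qb _))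
    (Divisor.mem_degZero.mp Dx.2) (by
      rintro _ ⟨s, hs, rfl⟩
      exact (lin_smul_iff _).mp (hJ s hs))
  have hD0 : Divisor.degree D = 0 := by
    obtain ⟨f, hf⟩ := hD
    obtain ⟨-, h3⟩ := isDiv_iff.1 hf
    have h4 : D = (Dx : Divisor Qb (modularFunctionFieldFullC Qb (N * p))) + divOf f := by
      rw [← h3]; abel
    rw [h4, map_add, degree_divOf, add_zero]
    exact Divisor.mem_degZero.mp Dx.2
  let D' : Divisor.degZero (K := Qb) (F := modularFunctionFieldFullC Qb (N * p)) := ⟨D, hD0⟩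
  have eD : Pic0.mk Dx = Pic0.mk D' := mk_eq_mk_iff.mpr hD.symm
  rw [eD] at hpx hwx hαx hsx hJ hind ⊢
  obtain ⟨fe, hfe⟩ := exists_isDiv_of_nsmul hpe
  obtain ⟨f, hf⟩ := exists_isDiv_of_nsmul hpx
  have hpush : ∀ B : Divisor.degZero (K := Qb) (F := modularFunctionFieldFullC Qb (N * p)),
      pushPic (alpha1 Qb N p) (SemilinearAut.ofAlgAut (ww Qb N p hpN) • Pic0.mk B) = 0 →
      Lin (Degen.push (alpha1 Qb N p) (SemilinearAut.ofAlgAut (ww Qb N p hpN) •
        (B : Divisor Qb (modularFunctionFieldFullC Qb (N * p))))) 0 := by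
    intro B hB
    have h3 : SemilinearAut.ofAlgAut (ww Qb N p hpN) • Pic0.mk B =
      Pic0.mk (SemilinearAut.degZeroSMulHom (SemilinearAut.ofAlgAut (ww Qb N p hpN)) B) := rfl
    rw [h3, pushPic_mk, mk_eq_zero_iff] at hB
    obtain ⟨g, hg'⟩ := hB
    exact ⟨g, by rw [sub_zero]; exact hg'⟩
  obtain ⟨f', hf', fb, hfb0, ⟨hfO, hfr⟩, hnp, j₀, h3, h4⟩ := core₁ A π hπ harch N p hpN hg d hd ι h12 hζ
    hA K hfe hf (sg_of_smul hε hwe) (sg_of_smul hε hwx) (hpush _ hαe) (hpush _ hαx)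
    (fun s hs k hk g hg' => by
      rw [huniq s g hg']
      have h5 := hse s hs k hk
      have h6 : k • Pic0.mk De = Pic0.mk (k • De) := rfl
      rw [h6, lin_smul_iff] at h5
      exact h5)
    (fun s hs g hg' => by
      rw [huniq s g hg']
      obtain ⟨b, h5⟩ := hsx s hs
      have h6 : Pic0.mk D' + b • Pic0.mk De = Pic0.mk (D' + b • De) := rfl
      rw [h6, lin_smul_iff] at h5
      exact ⟨b, h5⟩)
    (fun s hs g hg' => by
      rw [huniq s g hg']
      exact hDJ _ ⟨s, hs, rfl⟩)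
    (fun a b h5 => hind a b ((lin_zsmul_iff a b).mpr h5)) ub hub
  refine ⟨D', rfl, f', hfO, ?_, fb, hfb0, ?_, hnp, j₀, h3, h4⟩
  · rw [← (isDiv_iff.1 hf').2, natCast_zsmul]
  · rw [← hfr]
    rfl

end Fermat.Agent.LLv
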