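import Fermat.Agent.LLc.CU
import Fermat.Agent.LLp.MainAbs
import Fermat.Agent.FunField.RR
import Fermat.Agent.FunField.AlgClosed

/-!
# Divisors and classes; fixed divisors representing fixed classes
-/

set_option autoImplicit false

noncomputable section

open AlgebraicCurve Module

namespace Fermat.Agent.LLv

open Fermat.Agent.LLp Fermat.Agent.FunField Fermat.Agent.FunField.PlaceLemmas

variable {L F : Type*} [Field L] [Field F] [Algebra L F]

section Pic

theorem mk_eq_mk_iff {A B : Divisor.degZero (K := L) (F := F)} :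
    Pic0.mk A = Pic0.mk B ↔ Lin (A : Divisor L F) (B : Divisor L F) := by
  unfold Pic0.mk
  rw [QuotientAddGroup.eq, AddSubgroup.mem_addSubgroupOf]
  have hAB : ∀ v, ((-A + B : Divisor.degZero (K := L) (F := F)) : Divisor L F) v =
      -(A : Divisor L F) v + (B : Divisor L F) v := fun v => rfl
  constructor
  · rintro ⟨f, hf, h⟩
    refine ⟨f⁻¹, inv_ne_zero hf, fun v => ?_⟩
    have h1 := h v
    rw [hAB] at h1
    rw [v.ord_inv, ← h1, Finsupp.sub_apply]
    ring
  · rintro ⟨f, hf, h⟩
    refine ⟨f⁻¹, inv_ne_zero hf, fun v => ?_⟩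
    have h1 := h v
    rw [Finsupp.sub_apply] at h1
    rw [hAB, v.ord_inv, ← h1]
    ring

theorem mk_eq_zero_iff {A : Divisor.degZero (K := L) (F := F)} :
    Pic0.mk A = 0 ↔ ∃ f, IsDiv (A : Divisor L F) f := by
  have h : (0 : Pic0 L F) = Pic0.mk 0 := rfl
  rw [h, mk_eq_mk_iff]
  constructor
  · rintro ⟨f, hf⟩
    refine ⟨f, ?_⟩
    have : (A : Divisor L F) - ((0 : Divisor.degZero (K := L) (F := F)) : Divisor L F) = A :=
      sub_zero _
    rwa [this] at hf
  · rintro ⟨f, hf⟩
    refine ⟨f, ?_⟩
    have : (A : Divisor L F) - ((0 : Divisor.degZero (K := L) (F := F)) : Divisor L F) = A :=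
      sub_zero _
    rwa [this]

end Pic

section Fix

theorem degree_single' [IsFF L F] [IsAlgClosed L] (v : Place L F) (n : ℤ) :
    Divisor.degree (Finsupp.single v n : Divisor L F) = n := by
  rw [Divisor.degree_single, FunField.deg_eq_one v]
  simp

theorem mem_rr_iff {D : Divisor L F} {f : F} :
    f ∈ riemannRochSpace D ↔ f = 0 ∨ ∀ v : Place L F, -D v ≤ v.ord f := by
  rw [mem_riemannRochSpace_iff]
  exact ⟨fun h => or_iff_not_imp_left.mpr fun h0 v => (h v).resolve_left h0,
    fun h v => h.imp id fun h => h v⟩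

variable [IsFF L F] [IsAlgClosed L]

/-- A fixed class is represented by a fixed divisor. -/
theorem exists_fixed_rep {J : Set (SemilinearAut L F)} {P : Place L F} (hP : ∀ s ∈ J, s • P = P)
    {A : Divisor L F} (hA0 : Divisor.degree A = 0) (hA : ∀ s ∈ J, Lin (s • A) A) :
    ∃ D : Divisor L F, Lin D A ∧ ∀ s ∈ J, s • D = D := by
  classical
  have hex : ∃ j : ℕ, 0 < Module.finrank L
      (riemannRochSpace (A + Finsupp.single P ((j : ℤ) - 1))) := by
    refine ⟨(genusFF L F) + 1, ?_⟩
    have h1 := FunField.riemann_roch (A + Finsupp.single P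
      (((genusFF L F + 1 : ℕ) : ℤ) - 1))
    rw [map_add, hA0, degree_single'] at h1
    push_cast at h1
    have h2 : (0 : ℤ) < Module.finrank L (riemannRochSpace
      (A + Finsupp.single P (((genusFF L F + 1 : ℕ) : ℤ) - 1))) := by
      push_cast
      linarith
    exact_mod_cast h2
  obtain ⟨j, hj, hjmin⟩ : ∃ j : ℕ, 0 < Module.finrank L
      (riemannRochSpace (A + Finsupp.single P ((j : ℤ) - 1))) ∧ ∀ i < j, ¬ 0 < Module.finrank L
      (riemannRochSpace (A + Finsupp.single P ((i : ℤ) - 1))) :=
    ⟨Nat.find hex, Nat.find_spec hex, fun i hi => Nat.find_min hex hi⟩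
  set D₁ : Divisor L F := A + Finsupp.single P ((j : ℤ) - 1) with hD₁
  have hone : Module.finrank L (riemannRochSpace D₁) = 1 := by
    rcases j with _ | j
    · exfalso
      obtain ⟨f, hf, hf0⟩ := FunField.exists_ne_zero_of_finrank_pos hj
      have h1 : (0 : Divisor L F) ≤ divOf f + D₁ := by
        intro v
        rw [mem_rr_iff] at hf
        have := hf.resolve_left hf0 v
        rw [Finsupp.add_apply, FunField.divOf_apply, Finsupp.zero_apply]
        linarith
      have h2 := FunField.degree_mono h1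
      rw [map_zero, map_add, FunField.degree_divOf, hD₁, map_add, hA0, degree_single'] at h2
      push_cast at h2
    · have h1 := hjmin j (Nat.lt_succ_self j)
      push Not at h1
      have h2 : D₁ = (A + Finsupp.single P ((j : ℤ) - 1)) + Finsupp.single P 1 := by
        rw [hD₁, add_assoc, ← Finsupp.single_add]
        push_cast
        congr 2
        ring
      have h3 := FunField.finrank_rr_add_le (A + Finsupp.single P ((j : ℤ) - 1))
        (Finsupp.single P 1) (by intro v; rw [Finsupp.single_apply]; split_ifs <;> simp)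
      rw [← h2, degree_single'] at h3
      omega
  obtain ⟨f₀, hf₀, hf₀0⟩ := FunField.exists_ne_zero_of_finrank_pos hj
  have hmult : ∀ f ∈ riemannRochSpace D₁, ∃ c : L, f = c • f₀ := by
    intro f hf
    obtain ⟨c, hc⟩ := (finrank_eq_one_iff_of_nonzero' (⟨f₀, hf₀⟩ : riemannRochSpace D₁)
      (by intro h; exact hf₀0 (congrArg Subtype.val h))).mp hone ⟨f, hf⟩
    exact ⟨c, (congrArg Subtype.val hc).symm⟩
  refine ⟨A + divOf f₀, ⟨f₀, hf₀0, fun v => ?_⟩, fun s hs => ?_⟩
  · rw [add_sub_cancel_left, FunField.divOf_apply]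
  obtain ⟨h, hh0, hh⟩ := hA s hs
  have hsA : s • A = A + divOf h := by
    ext v
    have := hh v
    rw [Finsupp.sub_apply] at this
    rw [Finsupp.add_apply, FunField.divOf_apply, ← this]
    ring
  have hsP : s • (Finsupp.single P ((j : ℤ) - 1) : Divisor L F) =
      Finsupp.single P ((j : ℤ) - 1) := by
    rw [SemilinearAut.smul_single, hP s hs]
  have hgD : s • D₁ = D₁ + divOf h := by
    rw [hD₁, smul_add, hsA, hsP]
    abel
  have hgf0 : s • f₀ ≠ 0 := fun h0 => hf₀0 ((smul_eq_zero_iff_eq s).mp h0)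
  have h2 : (s • f₀) * h ∈ riemannRochSpace D₁ := by
    have h3 := LLp.smul_mem_rr s hf₀
    rw [hgD] at h3
    rw [mem_rr_iff] at h3 ⊢
    right
    intro v
    have h4 := h3.resolve_left hgf0 v
    rw [Finsupp.add_apply, FunField.divOf_apply] at h4
    rw [v.ord_mul hgf0 hh0]
    linarith
  obtain ⟨c, hc⟩ := hmult _ h2
  have hc0 : c ≠ 0 := by
    rintro rfl
    rw [zero_smul] at hc
    exact mul_ne_zero hgf0 hh0 hc
  have h5 : (divOf (s • f₀) : Divisor L F) + divOf h = divOf f₀ := by
    ext v
    rw [Finsupp.add_apply, FunField.divOf_apply, FunField.divOf_apply, FunField.divOf_apply,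
      ← v.ord_mul hgf0 hh0, hc, Algebra.smul_def, v.ord_mul ((_root_.map_ne_zero _).mpr hc0) hf₀0,
      ord_algebraMap, zero_add]
  have h6 : s • (divOf f₀ : Divisor L F) = divOf (s • f₀) := by
    ext v
    rw [SemilinearAut.divisor_smul_apply, FunField.divOf_apply, FunField.divOf_apply,
      ← SemilinearAut.ord_smul s (s⁻¹ • v) f₀, smul_inv_smul]
  rw [smul_add, hsA, h6, ← h5]
  abel

end Fix

end Fermat.Agent.LLv
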