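import Fermat.Agent.LLv.Eig
import Fermat.Agent.ZAL.WComm
import Fermat.Agent.ZLoc2.HasU
import Fermat.Agent.Degen.HeckeEq

/-!
# The eigenspace of the Jacobian
-/

set_option autoImplicit false
set_option linter.unusedSectionVars false

noncomputable section

open Module IsLocalRing ModularCurve AlgebraicCurve

attribute [-instance] Fermat.Agent.X0Places.ffField Fermat.Agent.X0Places.ffAlgebra

namespace Fermat.Agent.LLv

open Fermat.Agent.TorsCmp Fermat.Agent.Degen Fermat.Agent.HeckeRed Fermat.Agent.GalJ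
open Fermat.Agent.BadRed

local notation "Qb" => AlgebraicClosure ℚ
local notation "GQ" => (AlgebraicClosure ℚ ≃ₐ[ℚ] AlgebraicClosure ℚ)

theorem exDiv {N p : ℕ} (hp : p.Prime) (hpN : ¬ p ∣ N) : ZAL.ExDiv p (N * p) where
  dvd := Dvd.intro_left N rfl
  cop := by
    rw [Nat.mul_div_cancel _ hp.pos]
    exact (Nat.Prime.coprime_iff_not_dvd hp).mpr hpN

section V

variable (M p : ℕ) [NeZero M]

/-- the simultaneous eigenspace -/
def eigJ (S : Finset ℕ) (a : ℕ → ℤ) : AddSubgroup (JZero M) where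
  carrier := {c | p • c = 0 ∧ ∀ (ℓ : ℕ) (hℓ : ℓ.Prime), ℓ ∉ S →
    heckeOperatorBar M ⟨ℓ, hℓ⟩ c = a ℓ • c}
  add_mem' := by
    rintro x y ⟨h1, h2⟩ ⟨h3, h4⟩
    refine ⟨by rw [nsmul_add, h1, h3, add_zero], fun ℓ hℓ hS => ?_⟩
    rw [map_add, h2 ℓ hℓ hS, h4 ℓ hℓ hS, zsmul_add]
  zero_mem' := ⟨nsmul_zero _, fun ℓ hℓ hS => by rw [map_zero, zsmul_zero]⟩
  neg_mem' := by
    rintro x ⟨h1, h2⟩
    refine ⟨by rw [neg_nsmul, h1, neg_zero], fun ℓ hℓ hS => ?_⟩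
    rw [map_neg, h2 ℓ hℓ hS, zsmul_neg]

variable {M p} {S : Finset ℕ} {a : ℕ → ℤ}

theorem mem_eigJ {c : JZero M} : c ∈ eigJ M p S a ↔ p • c = 0 ∧
    ∀ (ℓ : ℕ) (hℓ : ℓ.Prime), ℓ ∉ S → heckeOperatorBar M ⟨ℓ, hℓ⟩ c = a ℓ • c := Iff.rfl

theorem gal_smul_nsmul (σ : GQ) (n : ℕ) (c : JZero M) : σ • (n • c) = n • (σ • c) :=
  map_nsmul (DistribSMul.toAddMonoidHom (JZero M) σ) n c

theorem gal_smul_zsmul (σ : GQ) (n : ℤ) (c : JZero M) : σ • (n • c) = n • (σ • c) :=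
  map_zsmul (DistribSMul.toAddMonoidHom (JZero M) σ) n c

theorem gal_zero (σ : GQ) : σ • (0 : JZero M) = 0 :=
  map_zero (DistribSMul.toAddMonoidHom (JZero M) σ)

theorem semi_zero {K F : Type*} [Field K] [Field F] [Algebra K F] (g : SemilinearAut K F) :
    g • (0 : Pic0 K F) = 0 :=
  map_zero (DistribSMul.toAddMonoidHom (Pic0 K F) g)

theorem semi_nsmul {K F : Type*} [Field K] [Field F] [Algebra K F] (g : SemilinearAut K F) (n : ℕ)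
    (c : Pic0 K F) : g • (n • c) = n • (g • c) :=
  map_nsmul (DistribSMul.toAddMonoidHom (Pic0 K F) g) n c

theorem semi_zsmul {K F : Type*} [Field K] [Field F] [Algebra K F] (g : SemilinearAut K F) (n : ℤ)
    (c : Pic0 K F) : g • (n • c) = n • (g • c) :=
  map_zsmul (DistribSMul.toAddMonoidHom (Pic0 K F) g) n c

theorem gal_mem_eigJ {c : JZero M} (hc : c ∈ eigJ M p S a) (σ : GQ) : σ • c ∈ eigJ M p S a := by
  refine ⟨(gal_smul_nsmul σ p c).symm.trans ((congrArg (fun z => σ • z) hc.1).trans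
    (gal_zero σ)), fun ℓ hℓ hS => ?_⟩
  exact (heckeOperatorBar_smul M ⟨ℓ, hℓ⟩ σ c).trans
    ((congrArg (fun z => σ • z) (hc.2 ℓ hℓ hS)).trans (gal_smul_zsmul σ _ c))

theorem w_mem_eigJ {d : ℕ} (h : ZAL.ExDiv d M) (hS : ∀ q : ℕ, q.Prime → q ∣ M → q ∈ S)
    {c : JZero M} (hc : c ∈ eigJ M p S a) : ZAL.wS iotaQbar h • c ∈ eigJ M p S a := by
  refine ⟨(semi_nsmul _ p c).symm.trans ((congrArg (fun z => ZAL.wS iotaQbar h • z) hc.1).trans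
    (semi_zero _)), fun ℓ hℓ hℓS => ?_⟩
  have : NeZero ℓ := ⟨hℓ.ne_zero⟩
  have h1 := ZAL.hecke_wS iotaQbar h (ℓ := ℓ)
    ((Nat.Prime.coprime_iff_not_dvd hℓ).2 fun hd => hℓS (hS ℓ hℓ (hd.trans h.dvd))).symm c
  have h2 := hc.2 ℓ hℓ hℓS
  refine h1.trans ?_
  exact (congrArg (fun z => ZAL.wS iotaQbar h • z) h2).trans (semi_zsmul _ _ _)

theorem ww_pic {d : ℕ} (h : ZAL.ExDiv d M) (c : JZero M) :
    ZAL.wS iotaQbar h • ZAL.wS iotaQbar h • c = c := by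
  have h3 : ZAL.wF iotaQbar h * ZAL.wF iotaQbar h = 1 :=
    AlgEquiv.ext fun y => ZAL.wF_wF iotaQbar h y
  have h4 : ZAL.wS iotaQbar h * ZAL.wS iotaQbar h = 1 := by
    show SemilinearAut.ofAlgAut (ZAL.wF iotaQbar h) * SemilinearAut.ofAlgAut (ZAL.wF iotaQbar h) = 1
    rw [← map_mul, h3, map_one]
  rw [smul_smul, h4, one_smul]

/-- a stable eigenspace with a sign -/
def eigW {d : ℕ} (h : ZAL.ExDiv d M) (S : Finset ℕ) (a : ℕ → ℤ) (p : ℕ) (ε : ℤ) :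
    AddSubgroup (JZero M) where
  carrier := {c | c ∈ eigJ M p S a ∧ ZAL.wS iotaQbar h • c = ε • c}
  add_mem' := by
    rintro x y ⟨h1, h2⟩ ⟨h3, h4⟩
    exact ⟨add_mem h1 h3, by rw [smul_add, h2, h4, zsmul_add]⟩
  zero_mem' := ⟨zero_mem _, by rw [smul_zero, zsmul_zero]⟩
  neg_mem' := by
    rintro x ⟨h1, h2⟩
    exact ⟨neg_mem h1, by rw [smul_neg, h2, zsmul_neg]⟩

theorem exists_sign {d : ℕ} (h : ZAL.ExDiv d M) (hS : ∀ q : ℕ, q.Prime → q ∣ M → q ∈ S)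
    {c : JZero M} (hc : c ∈ eigJ M p S a) (hc0 : c ≠ 0) :
    ∃ ε : ℤ, (ε = 1 ∨ ε = -1) ∧ ∃ c ∈ eigW h S a p ε, c ≠ 0 := by
  by_cases h0 : c + ZAL.wS iotaQbar h • c = 0
  · refine ⟨-1, Or.inr rfl, c, ⟨hc, ?_⟩, hc0⟩
    rw [neg_one_zsmul]
    exact (neg_eq_of_add_eq_zero_right h0).symm
  · refine ⟨1, Or.inl rfl, _, ⟨add_mem hc (w_mem_eigJ h hS hc), ?_⟩, h0⟩
    rw [smul_add, ww_pic, one_zsmul, add_comm]

theorem gal_mem_eigW {d : ℕ} {h : ZAL.ExDiv d M} {ε : ℤ} {c : JZero M} (hc : c ∈ eigW h S a p ε)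
    (σ : GQ) : σ • c ∈ eigW h S a p ε :=
  ⟨gal_mem_eigJ hc.1 σ, by rw [ZAL.gal_wS_pic, hc.2, gal_smul_zsmul]⟩

end V

section Push

variable {N p : ℕ} [NeZero N] [NeZero p] [NeZero (N * p)] {S : Finset ℕ} {a : ℕ → ℤ}

/-- the push-forward of the eigenspace -/
theorem push_mem_eigJ (hS : ∀ q : ℕ, q.Prime → q ∣ N * p → q ∈ S) {c : JZero (N * p)}
    (hc : c ∈ eigJ (N * p) p S a) :
    pushPic (heckeAlphaBar Qb N p) c ∈ eigJ N p S a := by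
  refine ⟨by rw [← map_nsmul, hc.1, map_zero], fun ℓ hℓ hℓS => ?_⟩
  have : NeZero ℓ := ⟨hℓ.ne_zero⟩
  have h1 := ZAL.push_hecke (m := N) (M := N * p) hℓ (fun h => hℓS (hS ℓ hℓ h))
    (Dvd.intro p rfl) (heckeAlphaBar Qb N p) (fun x => coe_heckeAlphaBar N p x) c
  have h2 := hc.2 ℓ hℓ hℓS
  refine h1.symm.trans ?_
  exact (congrArg (fun z => pushPic (heckeAlphaBar Qb N p) z) h2).trans (map_zsmul _ _ _)

end Push

end Fermat.Agent.LLv
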