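import Fermat.Agent.LLv.CoreE
import Fermat.Agent.LLv.JSide
import Fermat.Agent.FlatJ.CuspInf
import Fermat.Agent.PIC.Final
import Fermat.Agent.LLw.Efin2

/-!
# Level lowering at `p`: the main theorem
-/

set_option autoImplicit false
set_option linter.unusedSectionVars false
set_option maxHeartbeats 1000000

noncomputable section

open AlgebraicCurve Module IntermediateField ModularCurve HahnSeries CuspForm ModularFormClass
  CongruenceSubgroup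

attribute [-instance] Fermat.Agent.X0Places.ffField Fermat.Agent.X0Places.ffAlgebra

namespace Fermat.Agent.LLv

open Fermat.Agent.BadRed Fermat.Agent.LLp Fermat.Agent.LLu Fermat.Agent.LLc Fermat.Agent.Degen
open Fermat.Agent.FunField Fermat.Agent.FunField.PlaceLemmas Fermat.Agent.Deuring
open Fermat.Agent.Igusa Fermat.Agent.AtkinLehner Fermat.Agent.HeckeRed Fermat.Agent.TorsCmp
open Fermat.Agent.MzCusp (uL uL_ne_zero)
open Fermat.Agent.ZLoc2 (IsCoef IsAL)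

local notation "Qb" => AlgebraicClosure ℚ
local notation "GQ" => (AlgebraicClosure ℚ ≃ₐ[ℚ] AlgebraicClosure ℚ)

/-- The cusp at infinity of `X₀(M)` is rational. -/
theorem exists_rational_place (M : ℕ) [NeZero M] : ∃ P : Place Qb (modularFunctionFieldBar M),
    ∀ σ : GQ, arithmeticGalois (modularFunctionFieldFull M) σ • P = P := by
  have h : ∃ x ∈ laurentBaseChange (AlgebraicClosure ℚ) (modularFunctionFieldFull M),
      ∃ n : ℤ, n < 0 ∧ x.coeff n ≠ 0 := by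
    refine ⟨jqModC (AlgebraicClosure ℚ), ?_, -1, by norm_num, ?_⟩
    · rw [Fermat.Agent.Igusa.laurentBaseChange_full]
      exact jqModC_mem_full _ M
    · rw [coeff_jqModC_neg_one]
      exact one_ne_zero
  exact ⟨FlatJ.cuspInf (modularFunctionFieldFull M) h, FlatJ.smul_cuspInf h⟩

/-- the Hecke relation on divisors -/
theorem exists_hecke_rel {M : ℕ} [NeZero M] {ℓ : ℕ} [NeZero ℓ] (hℓ : ℓ.Prime)
    {D : Divisor.degZero (K := Qb) (F := modularFunctionFieldBar M)} {a : ℤ}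
    (h : heckeOperatorBar M ⟨ℓ, hℓ⟩ (Pic0.mk D) = a • Pic0.mk D) :
    ∃ (E' : IntermediateField Qb (LaurentSeries Qb)) (_ : IsFF Qb E')
      (_ : E' = modularFunctionFieldFullC Qb (M * ℓ)) (α β : modularFunctionFieldBar M →ₐ[Qb] E')
      (hβi : β.toRingHom.IsIntegral) (hαi : α.toRingHom.IsIntegral),
      (∀ x, (α x : LaurentSeries Qb) = x) ∧
      (∀ x, (β x : LaurentSeries Qb) = qExpand Qb ℓ (x : LaurentSeries Qb)) ∧
      ∃ h : modularFunctionFieldBar M, h ≠ 0 ∧ Divisor.correspondence β α hβi hαi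
        (D : Divisor Qb (modularFunctionFieldBar M)) = a • (D : Divisor Qb _) + divOf h := by
  have i4 : NeZero (M * ℓ) := ⟨mul_ne_zero (NeZero.ne _) hℓ.ne_zero⟩
  refine ⟨modularFunctionFieldBar (M * ℓ), inferInstance,
    HeckeRed.laurentBaseChange_full Qb (M * ℓ), heckeAlphaBar Qb M ℓ,
    heckeBetaBar Qb M ℓ, betaInt Qb M ℓ, alphaInt Qb M ℓ,
    coe_heckeAlphaBar M ℓ, coe_heckeBetaBar M ℓ, ?_⟩
  have h6 := heckeOperatorAlong_mk Qb M ℓ D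
  have h7 : a • Pic0.mk D = Pic0.mk (a • D) := rfl
  have h8 := h6.symm.trans (h.trans h7)
  rw [mk_eq_mk_iff] at h8
  obtain ⟨g, hh⟩ := h8
  obtain ⟨h0, h9⟩ := isDiv_iff.1 hh
  refine ⟨g, h0, ?_⟩
  rw [← h9]
  have h10 : ((a • D : Divisor.degZero (K := Qb) (F := modularFunctionFieldBar M)) :
    Divisor Qb (modularFunctionFieldBar M)) = a • (D : Divisor Qb _) := rfl
  rw [h10, add_sub_cancel]
  rfl

section CoreJ

variable {κ : Type*} [Field κ] [IsAlgClosed κ]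
  (A : ValuationSubring Qb) (π : A →+* κ) [IsLocalHom π] (hπ : Function.Surjective π)
  (harch : ArchA π)
  (N p : ℕ) [hp : Fact p.Prime] [hN : NeZero N] [NeZero (N * p)] [CharP κ p] (hpN : ¬ p ∣ N)
  (hg : genusFF κ (modularFunctionFieldFullC κ N) = genusFF Qb (modularFunctionFieldFullC Qb N))
  (d : CP.DecAut A π) (hd : CP.IsFrob d p)

include hπ harch hpN hg hd in
/-- the core theorem over `ℚ̄` -/
theorem core_J (h12 : 12 < p) (hA : A.LiesOverPrime p) {ζ : Qb}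
    (hζ : IsPrimitiveRoot ζ p) {J₀ : Subgroup GQ} {β : Qb}
    (H : LLc.KHyp A p J₀ (A.valuation (ζ - 1)) β) (hex : ZAL.ExDiv p (N * p))
    {ce cx : JZero (N * p)} (hpe : p • ce = 0) (hpx : p • cx = 0) {ε : ℤ} (hε : ε = 1 ∨ ε = -1)
    (hwe : ZAL.wS iotaQbar hex • ce = ε • ce)
    (hwx : ZAL.wS iotaQbar hex • cx = ε • cx)
    (hαe : pushPic (heckeAlphaBar Qb N p) (ZAL.wS iotaQbar hex • ce) = 0)
    (hαx : pushPic (heckeAlphaBar Qb N p) (ZAL.wS iotaQbar hex • cx) = 0)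
    (hse : ∀ s ∈ A.inertiaSubgroupIn ℚ, ∀ k : ℕ, s ζ = ζ ^ k → s • ce = k • ce)
    (hsx : ∀ s ∈ A.inertiaSubgroupIn ℚ, ∃ b : ℕ, s • cx = cx + b • ce)
    (hJ : ∀ s ∈ J₀, s • cx = cx)
    (hind : ∀ a b : ℤ, a • cx = b • ce → (p : ℤ) ∣ a)
    (S : Set ℕ) (hpS : p ∈ S) (hS : ∀ q : ℕ, q.Prime → q ∣ N → q ∈ S) (a : ℕ → ℤ)
    (hT : ∀ (ℓ : ℕ) (hℓ : ℓ.Prime), ℓ ∉ S → heckeOperatorBar (N * p) ⟨ℓ, hℓ⟩ cx = a ℓ • cx) :
    (∀ ℓ : ℕ, ℓ.Prime → ℓ ∉ S → (p : ℤ) ∣ a ℓ - (ℓ + 1)) ∨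
      ∃ c : Pic0 κ (modularFunctionFieldFullC κ N), c ≠ 0 ∧ p • c = 0 ∧
        ∀ (ℓ : ℕ) (_ : ℓ.Prime) [NeZero ℓ], ¬ ℓ ∣ N → ℓ ∉ S → PIC.heckeC κ N ℓ c = a ℓ • c := by
  have hζA : ζ ∈ A := BadRed.mem_of_pow_eq_one hp.out.ne_zero hζ.pow_eq_one
  obtain ⟨P, hP⟩ := exists_rational_place (N * p)
  have hub : uL κ p ∈ modularFunctionFieldFullC κ N := uL_mem_full_res iotaQbar A π hπ harch N p hpN
  have hgal : ∀ σ : GQ, IsCoef (arithmeticGalois (modularFunctionFieldFull (N * p)) σ)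
    (σ : Qb →+* Qb) := fun σ x => coe_arithmeticGalois_smul _ σ x
  obtain ⟨D, hD, f, hf, hfD, fb, hfb0, hfb, hnp, j₀, h3, h4⟩ := core_E A π hπ harch N p hpN hg d hd
    iotaQbar h12 (ζ := ⟨ζ, hζA⟩) hζ hA H (HeckeRed.laurentBaseChange_full Qb N)
    (HeckeRed.laurentBaseChange_full Qb (N * p)) (heckeAlphaBar Qb N p) (coe_heckeAlphaBar N p)
    (ZAL.wF iotaQbar hex) (ZLoc2.isAL_wF iotaQbar N p hpN hex)
    (fun σ => arithmeticGalois (modularFunctionFieldFull (N * p)) σ) hgal hP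
    hpe hpx hε hwe hwx hαe hαx hse hsx hJ hind ⟨uL κ p, hub⟩ rfl
  subst hD
  exact LLw.efin A π hπ harch N p hpN (HeckeRed.laurentBaseChange_full Qb (N * p)) hf hfD fb
    ⟨uL κ p, hub⟩ hfb hfb0 hnp rfl h3 h4 S hpS hS a
    (fun ℓ hℓ hℓS => haveI : NeZero ℓ := ⟨hℓ.ne_zero⟩; exists_hecke_rel hℓ (hT ℓ hℓ hℓS))

end CoreJ

set_option synthInstance.maxHeartbeats 400000 in
/-- **Level lowering at `p`.** -/
theorem mainJ {N p : ℕ} [NeZero N] [NeZero (N * p)] [hp : Fact p.Prime] (hpN : ¬ p ∣ N)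
    (hp13 : 13 < p) {E : Type} [AddCommGroup E] [Module (ZMod p) E] [DistribMulAction GQ E]
    (hdim : Module.finrank (ZMod p) E = 2)
    (hirr : ∀ W : Submodule (ZMod p) E, (∀ g : GQ, ∀ x ∈ W, g • x ∈ W) → W = ⊥ ∨ W = ⊤)
    (KE : IntermediateField ℚ Qb) (hKE : FiniteDimensional ℚ KE)
    (hE : ∀ σ : GQ, (∀ x ∈ KE, σ x = x) → ∀ v : E, σ • v = v) (S : Finset ℕ) (hpS : p ∈ S)
    (hS : ∀ q : ℕ, q.Prime → q ∣ N * p → q ∈ S) (a : ℕ → ℤ)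
    (frE : ∀ ℓ : ℕ, ℓ.Prime → ℓ ∉ S → ∀ A : ValuationSubring Qb, A.LiesOverPrime ℓ →
      ∀ τ : GQ, A.IsFrobeniusAt τ ℓ → ∀ v : E, τ • τ • v - a ℓ • (τ • v) + ℓ • v = 0)
    {A : ValuationSubring Qb} (hA : A.LiesOverPrime p) {ζ : Qb} (hζ : IsPrimitiveRoot ζ p)
    {e x : E} (he : e ≠ 0) (hx : ∀ k : ℕ, x ≠ k • e)
    (hIe : ∀ s ∈ A.inertiaSubgroupIn ℚ, ∀ k : ℕ, s ζ = ζ ^ k → s • e = k • e)
    (hIx : ∀ s ∈ A.inertiaSubgroupIn ℚ, ∃ κ : ℕ, s • x = x + κ • e)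
    (J₀ : Subgroup GQ) (β : Qb) (hJx : ∀ s ∈ J₀, s • x = x)
    (H : LLc.KHyp A p J₀ (A.valuation (ζ - 1)) β) {c : JZero (N * p)} (hc0 : c ≠ 0)
    (hpc : p • c = 0) (hcT : ∀ (ℓ : ℕ) (hℓ : ℓ.Prime), ¬ ℓ ∣ N * p → ℓ ∉ S →
      heckeOperatorBar (N * p) ⟨ℓ, hℓ⟩ c = a ℓ • c) :
    ∃ (f : CuspForm (Gamma0 N) 2) (𝔪 : Ideal (integralClosure ℤ ℂ)), f.IsNormalizedEigenform ∧
      𝔪.IsMaximal ∧ (p : integralClosure ℤ ℂ) ∈ 𝔪 ∧ ∀ ℓ : ℕ, ℓ.Prime → ¬ ℓ ∣ N → ℓ ∉ S →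
        ∃ b : integralClosure ℤ ℂ, (b : ℂ) = qCoeff f ℓ ∧
          b - ((a ℓ : ℤ) : integralClosure ℤ ℂ) ∈ 𝔪 := by
  have hp2 : p ≠ 2 := by omega
  have i1 : NeZero p := ⟨hp.out.ne_zero⟩
  have hex : ZAL.ExDiv p (N * p) := exDiv hp.out hpN
  have hSN : ∀ q : ℕ, q.Prime → q ∣ N → q ∈ (S : Set ℕ) := fun q hq h => hS q hq (h.mul_right p)
  have hcV : c ∈ eigJ (N * p) p S a :=
    ⟨hpc, fun ℓ hℓ hℓS => hcT ℓ hℓ (fun h => hℓS (hS ℓ hℓ h)) hℓS⟩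
  by_cases hold : ∃ c ∈ eigJ (N * p) p S a, pushPic (heckeAlphaBar Qb N p) c ≠ 0
  · -- the old case
    obtain ⟨c, hc, hne⟩ := hold
    have h1 := push_mem_eigJ hS hc
    exact PIC.exists_eigenform_of_classJ (S := (S : Set ℕ)) hSN a hne h1.1
      (fun ℓ hℓ _ hℓS => h1.2 ℓ hℓ hℓS)
  push Not at hold
  -- the sign of the involution
  obtain ⟨ε, hε, c₁, hc₁, hc₁0⟩ := exists_sign (p := p) hex hS hcV hc0
  -- the embedding
  obtain ⟨ι, hι, hιV, hιg⟩ := exists_embedding_J (M := N * p) hp2 hdim hirr KE hKE hE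
    (eigW hex S a p ε) ⟨c₁, hc₁, hc₁0⟩ (fun c hc => hc.1.1) (fun σ c hc => gal_mem_eigW hc σ) S hpS
    hS a (fun c hc ℓ hℓ hℓS => hc.1.2 ℓ hℓ hℓS) frE
  have i2 : IsAlgClosed (IsLocalRing.ResidueField A) := isAlgClosed_residueField A
  have i3 : CharP (IsLocalRing.ResidueField A) p := charP_residueField hp.out hA
  obtain ⟨Φ, hΦ⟩ := Frob.exists_isFrobeniusAt hp.out hA
  have hN0 : (N : IsLocalRing.ResidueField A) ≠ 0 := by
    rw [Ne, CharP.cast_eq_zero_iff _ p]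
    exact hpN
  have hww : ∀ c ∈ eigW hex S a p ε,
      pushPic (heckeAlphaBar Qb N p) (ZAL.wS iotaQbar hex • c) = 0 :=
    fun c hc => hold _ (w_mem_eigJ hex hS hc.1)
  have hind : ∀ z t : ℤ, z • ι x = t • ι e → (p : ℤ) ∣ z := by
    intro z t h
    rw [← map_zsmul, ← map_zsmul] at h
    have h5 := hι h
    by_contra hcon
    have h6 : ((z : ℤ) : ZMod p) ≠ 0 := by
      rwa [Ne, ZMod.intCast_zmod_eq_zero_iff_dvd]
    have h7 : ((z : ℤ) : ZMod p) • x = ((t : ℤ) : ZMod p) • e := by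
      rw [Int.cast_smul_eq_zsmul, Int.cast_smul_eq_zsmul]
      exact h5
    apply hx ((((z : ℤ) : ZMod p)⁻¹ * ((t : ℤ) : ZMod p)).val)
    rw [← Nat.cast_smul_eq_nsmul (ZMod p), ZMod.natCast_val, ZMod.cast_id', id, mul_smul, ← h7,
      smul_smul, inv_mul_cancel₀ h6, one_smul]
  have hse : ∀ s ∈ A.inertiaSubgroupIn ℚ, ∀ k : ℕ, s ζ = ζ ^ k → s • ι e = k • ι e := by
    intro s hs k hk
    rw [← hιg s e, hIe s hs k hk, map_nsmul]
  have hsx : ∀ s ∈ A.inertiaSubgroupIn ℚ, ∃ b : ℕ, s • ι x = ι x + b • ι e := by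
    intro s hs
    obtain ⟨b, hb⟩ := hIx s hs
    exact ⟨b, by rw [← hιg s x, hb, map_add, map_nsmul]⟩
  have hJι : ∀ s ∈ J₀, s • ι x = ι x := by
    intro s hs
    rw [← hιg s x, hJx s hs]
  have hkey := core_J A (IsLocalRing.residue A) IsLocalRing.residue_surjective (archA hp.out hA)
    N p hpN (Cusps.genusFF_residue A N hN0) (ZLoc2.decAut hΦ.mem_decompositionSubgroup)
    (fun a => hΦ.smul_residue_eq a) (by omega) hA hζ H hex (hιV e).1.1 (hιV x).1.1 hε (hιV e).2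
    (hιV x).2 (hww _ (hιV e)) (hww _ (hιV x)) hse hsx hJι hind (S : Set ℕ) hpS hSN a
    (fun ℓ hℓ hℓS => (hιV x).1.2 ℓ hℓ hℓS)
  rcases hkey with h5 | ⟨c₂, hc₂0, hpc₂, hc₂T⟩
  · exact (not_eisenstein hp2 hdim hirr KE hKE hE S hpS a frE h5).elim
  · exact PIC.exists_eigenform_of_classC (S := (S : Set ℕ)) hSN hpN hpS A hA a hc₂0 hpc₂ hc₂T

end Fermat.Agent.LLv
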