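import Fermat.Agent.LLv.Blr
import Fermat.Agent.QuadRep.Relation
import Fermat.Agent.QuadRep.RankTwo
import Fermat.Prelude.Def_GaloisRep_ComplexConjugation

/-!
# Embedding an irreducible two-dimensional Galois module in a module with the same Frobenius relations
-/

set_option autoImplicit false

noncomputable section

open Module IsLocalRing Polynomial

namespace Fermat.Agent.LLv

open Fermat.Agent.QuadRep

local notation "GQ" => (AlgebraicClosure ℚ ≃ₐ[ℚ] AlgebraicClosure ℚ)

variable {p : ℕ} [hp : Fact p.Prime]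

section Basic

variable {M : Type} [AddCommGroup M] [Module (ZMod p) M] [DistribMulAction GQ M]

/-- the representation on a `p`-torsion group with an action. -/
def repZ (p : ℕ) [Fact p.Prime] (M : Type) [AddCommGroup M] [Module (ZMod p) M]
    [DistribMulAction GQ M] : GQ →* Module.End (ZMod p) M where
  toFun g := (DistribSMul.toAddMonoidHom M g).toZModLinearMap p
  map_one' := by
    ext x
    exact one_smul _ x
  map_mul' g h := by
    ext x
    exact mul_smul g h x

theorem repZ_apply (g : GQ) (x : M) : repZ p M g x = g • x := rfl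

end Basic

theorem p_mem_max : ((p : ℕ) : ZMod p) ∈ maximalIdeal (ZMod p) := by
  rw [CharP.cast_eq_zero]
  exact Submodule.zero_mem _

theorem isAdicComplete_zmod : IsAdicComplete (maximalIdeal (ZMod p)) (ZMod p) := by
  rw [IsLocalRing.maximalIdeal_eq_bot]
  infer_instance

/-- the cyclotomic character modulo `p` -/
def chi (p : ℕ) [Fact p.Prime] : GQ →* ZMod p :=
  haveI := isAdicComplete_zmod (p := p)
  cyc p (ZMod p) p_mem_max

theorem chi_frobenius {ℓ : ℕ} (hℓ : ℓ.Prime) (hℓp : ℓ ≠ p)
    {A : ValuationSubring (AlgebraicClosure ℚ)} (hA : A.LiesOverPrime ℓ)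
    {σ : GQ} (hσ : A.IsFrobeniusAt σ ℓ) : chi p σ = ℓ :=
  haveI := isAdicComplete_zmod (p := p)
  cyc_frobenius p_mem_max hℓ hℓp hA hσ

theorem chi_eq {σ : GQ} {a : ℕ} (h : ∀ μ : AlgebraicClosure ℚ, μ ^ p = 1 → σ μ = μ ^ a) :
    chi p σ = a := by
  have := isAdicComplete_zmod (p := p)
  have h1 := cyc_sub_mem (O := ZMod p) (p := p) p_mem_max 1 a σ (by rwa [pow_one])
  rw [pow_one, IsLocalRing.maximalIdeal_eq_bot, Ideal.mem_bot, sub_eq_zero] at h1
  exact h1

theorem cc_root {ζ : AlgebraicClosure ℚ} {n : ℕ} (hn : n ≠ 0) (hζ : ζ ^ n = 1) :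
    complexConjugation ζ = ζ⁻¹ := by
  apply complexEmbedding.toRingHom.injective
  change complexEmbedding (complexConjugation ζ) = complexEmbedding ζ⁻¹
  rw [complexEmbedding_complexConjugation, map_inv₀]
  have h1 : ‖complexEmbedding ζ‖ = 1 :=
    Complex.norm_eq_one_of_pow_eq_one (by rw [← map_pow, hζ, map_one]) hn
  rw [Complex.inv_def, ← Complex.sq_norm, h1]
  simp

theorem chi_cc : chi p complexConjugation = -1 := by
  have h1 := chi_eq (p := p) (σ := complexConjugation) (a := p - 1) (by
    intro μ hμ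
    rw [cc_root hp.out.ne_zero hμ]
    have h0 : μ ≠ 0 := by
      rintro rfl
      rw [zero_pow hp.out.ne_zero] at hμ
      exact zero_ne_one hμ
    exact inv_eq_of_mul_eq_one_right
      (by rw [← pow_succ', Nat.sub_add_cancel hp.out.one_le, hμ]))
  rw [h1, Nat.cast_sub hp.out.one_le, CharP.cast_eq_zero, zero_sub, Nat.cast_one]

section Span

variable {k : Type*} [Field k] {G : Type*} [Group G] {E : Type*} [AddCommGroup E] [Module k E]
  (ρ : G →* Module.End k E)

theorem mul_mem_span {x y : Module.End k E} (hx : x ∈ Submodule.span k (Set.range ρ))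
    (hy : y ∈ Submodule.span k (Set.range ρ)) : x * y ∈ Submodule.span k (Set.range ρ) := by
  induction hx, hy using Submodule.span_induction₂ with
  | mem_mem x y hx hy =>
    obtain ⟨g, rfl⟩ := hx
    obtain ⟨h, rfl⟩ := hy
    exact Submodule.subset_span ⟨g * h, map_mul _ _ _⟩
  | zero_left y hy => rw [zero_mul]; exact Submodule.zero_mem _
  | zero_right x hx => rw [mul_zero]; exact Submodule.zero_mem _
  | add_left x y z hx hy hz h1 h2 => rw [add_mul]; exact Submodule.add_mem _ h1 h2
  | add_right x y z hx hy hz h1 h2 => rw [mul_add]; exact Submodule.add_mem _ h1 h2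
  | smul_left r x y hx hy h1 => rw [smul_mul_assoc]; exact Submodule.smul_mem _ r h1
  | smul_right r x y hx hy h1 => rw [mul_smul_comm]; exact Submodule.smul_mem _ r h1

/-- an irreducible two-dimensional representation with an element of order two and trace zero is
absolutely irreducible -/
theorem span_eq_top (h2 : (2 : k) ≠ 0) (hdim : finrank k E = 2)
    (hirr : ∀ W : Submodule k E, (∀ g, ∀ x ∈ W, ρ g x ∈ W) → W = ⊥ ∨ W = ⊤) {c : G}
    (hc : ρ c * ρ c = 1) (htr : LinearMap.trace k E (ρ c) = 0) :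
    Submodule.span k (Set.range ρ) = ⊤ := by
  have hfin : Module.Finite k E := Module.finite_of_finrank_eq_succ hdim
  set A := Submodule.span k (Set.range ρ) with hA
  have h1A : (1 : Module.End k E) ∈ A := Submodule.subset_span ⟨1, map_one _⟩
  have hgA : ∀ g, ρ g ∈ A := fun g => Submodule.subset_span ⟨g, rfl⟩
  set P : Module.End k E := (2 : k)⁻¹ • (1 + ρ c) with hP
  set Q : Module.End k E := (2 : k)⁻¹ • (1 - ρ c) with hQ
  have hPA : P ∈ A := Submodule.smul_mem _ _ (Submodule.add_mem _ h1A (hgA c))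
  have hQA : Q ∈ A := Submodule.smul_mem _ _ (Submodule.sub_mem _ h1A (hgA c))
  have hPQ : P + Q = 1 := by
    rw [hP, hQ, ← smul_add, add_add_sub_cancel, ← two_smul k (1 : Module.End k E), smul_smul,
      inv_mul_cancel₀ h2, one_smul]
  have hQP : P * Q = 0 := by
    rw [hP, hQ, smul_mul_smul_comm]
    have : (1 + ρ c) * (1 - ρ c) = 0 := by
      rw [add_mul, mul_sub, mul_sub, hc]; simp
    rw [this, smul_zero]
  have hQP' : Q * P = 0 := by
    rw [hP, hQ, smul_mul_smul_comm]
    have : (1 - ρ c) * (1 + ρ c) = 0 := by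
      rw [sub_mul, mul_add, mul_add, hc, mul_one, one_mul, mul_one]; abel
    rw [this, smul_zero]
  have hPP : P * P = P := by
    have : P * (P + Q) = P := by rw [hPQ, mul_one]
    rwa [mul_add, hQP, add_zero] at this
  have hQQ : Q * Q = Q := by
    have : Q * (P + Q) = Q := by rw [hPQ, mul_one]
    rwa [mul_add, hQP', zero_add] at this
  have htr1 : LinearMap.trace k E (1 : Module.End k E) = 2 := by
    have : (1 : Module.End k E) = LinearMap.id := rfl
    rw [this, LinearMap.trace_id, hdim]
    norm_num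
  have hP0 : P ≠ 0 := by
    intro h0
    have h3 : LinearMap.trace k E P = 1 := by
      rw [hP, map_smul, map_add, htr, htr1, add_zero, smul_eq_mul, inv_mul_cancel₀ h2]
    rw [h0, map_zero] at h3
    exact zero_ne_one h3
  have hQ0 : Q ≠ 0 := by
    intro h0
    have h3 : LinearMap.trace k E Q = 1 := by
      rw [hQ, map_smul, map_sub, htr, htr1, sub_zero, smul_eq_mul, inv_mul_cancel₀ h2]
    rw [h0, map_zero] at h3
    exact zero_ne_one h3
  obtain ⟨w₁, hw₁⟩ : ∃ w, P w ≠ 0 := by
    by_contra hcon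
    push Not at hcon
    exact hP0 (LinearMap.ext hcon)
  obtain ⟨w₂, hw₂⟩ : ∃ w, Q w ≠ 0 := by
    by_contra hcon
    push Not at hcon
    exact hQ0 (LinearMap.ext hcon)
  set v₁ := P w₁ with hv₁
  set v₂ := Q w₂ with hv₂
  have e1 : P v₁ = v₁ := by rw [hv₁, ← Module.End.mul_apply, hPP]
  have e2 : Q v₂ = v₂ := by rw [hv₂, ← Module.End.mul_apply, hQQ]
  have e3 : Q v₁ = 0 := by rw [hv₁, ← Module.End.mul_apply, hQP', LinearMap.zero_apply]
  have e4 : P v₂ = 0 := by rw [hv₂, ← Module.End.mul_apply, hQP, LinearMap.zero_apply]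
  have hli : LinearIndependent k ![v₁, v₂] := by
    rw [LinearIndependent.pair_iff]
    intro s t hst
    have h3 := congrArg P hst
    have h4 := congrArg Q hst
    rw [map_add, map_smul, map_smul, e1, e4, smul_zero, add_zero, map_zero] at h3
    rw [map_add, map_smul, map_smul, e3, e2, smul_zero, zero_add, map_zero] at h4
    exact ⟨(smul_eq_zero.mp h3).resolve_right hw₁, (smul_eq_zero.mp h4).resolve_right hw₂⟩
  let B : Basis (Fin 2) k E := basisOfLinearIndependentOfCardEqFinrank hli (by
    rw [hdim, Fintype.card_fin])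
  have hB0 : B 0 = v₁ := by simp [B]
  have hB1 : B 1 = v₂ := by simp [B]
  have hrep : ∀ y : E, ∃ a b : k, y = a • v₁ + b • v₂ := by
    intro y
    have := B.sum_repr y
    rw [Fin.sum_univ_two, hB0, hB1] at this
    exact ⟨_, _, this.symm⟩
  -- an element moving `v₁` out of its line
  have hmove : ∀ v v' : E, v ≠ 0 → (∀ y : E, ∃ a b : k, y = a • v + b • v') →
      (v' ∉ Submodule.span k {v}) →
      ∃ g, ∃ a b : k, b ≠ 0 ∧ ρ g v = a • v + b • v' := by
    intro v v' hv hrep' hnot
    by_contra hcon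
    push Not at hcon
    rcases hirr (Submodule.span k {v}) (by
      intro g x hx
      obtain ⟨r, rfl⟩ := Submodule.mem_span_singleton.mp hx
      obtain ⟨a, b, hab⟩ := hrep' (ρ g v)
      by_cases hb : b = 0
      · rw [hb, zero_smul, add_zero] at hab
        rw [map_smul, hab, smul_smul]
        exact Submodule.smul_mem _ _ (Submodule.mem_span_singleton_self v)
      · exact absurd hab (hcon g a b hb)) with h | h
    · rw [Submodule.span_singleton_eq_bot] at h
      exact hv h
    · apply hnot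
      rw [h]
      trivial
  have hnot1 : v₂ ∉ Submodule.span k {v₁} := by
    intro h
    obtain ⟨r, hr⟩ := Submodule.mem_span_singleton.mp h
    have := congrArg Q hr
    rw [map_smul, e3, smul_zero, e2] at this
    exact hw₂ this.symm
  have hnot2 : v₁ ∉ Submodule.span k {v₂} := by
    intro h
    obtain ⟨r, hr⟩ := Submodule.mem_span_singleton.mp h
    have := congrArg P hr
    rw [map_smul, e4, smul_zero, e1] at this
    exact hw₁ this.symm
  obtain ⟨g, a, b, hb, hg⟩ := hmove v₁ v₂ hw₁ hrep hnot1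
  obtain ⟨h, a', b', hb', hh⟩ := hmove v₂ v₁ hw₂ (fun y => by
    obtain ⟨a, b, hab⟩ := hrep y
    exact ⟨b, a, by rw [hab, add_comm]⟩) hnot2
  rw [eq_top_iff]
  intro f _
  obtain ⟨α, β, hf1⟩ := hrep (f v₁)
  obtain ⟨γ, δ, hf2⟩ := hrep (f v₂)
  have key : f = α • P + (β * b⁻¹) • (Q * ρ g * P) + (γ * b'⁻¹) • (P * ρ h * Q) + δ • Q := by
    refine B.ext fun i => ?_
    fin_cases i
    · change f (B 0) = (α • P + (β * b⁻¹) • (Q * ρ g * P) + (γ * b'⁻¹) • (P * ρ h * Q) + δ • Q) (B 0)
      rw [hB0]
      simp only [LinearMap.add_apply, LinearMap.smul_apply, Module.End.mul_apply, e1, e3, map_zero,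
        smul_zero, add_zero, hg, map_add, map_smul, e2, zero_add]
      rw [smul_smul, mul_assoc, inv_mul_cancel₀ hb, mul_one]
      exact hf1
    · change f (B 1) = (α • P + (β * b⁻¹) • (Q * ρ g * P) + (γ * b'⁻¹) • (P * ρ h * Q) + δ • Q) (B 1)
      rw [hB1]
      simp only [LinearMap.add_apply, LinearMap.smul_apply, Module.End.mul_apply, e4, e2, map_zero,
        smul_zero, add_zero, hh, map_add, map_smul, e1, zero_add]
      rw [smul_smul, mul_assoc, inv_mul_cancel₀ hb', mul_one]
      exact hf2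
  rw [key]
  exact Submodule.add_mem _ (Submodule.add_mem _ (Submodule.add_mem _ (Submodule.smul_mem _ _ hPA)
    (Submodule.smul_mem _ _ (mul_mem_span ρ (mul_mem_span ρ hQA (hgA g)) hPA)))
    (Submodule.smul_mem _ _ (mul_mem_span ρ (mul_mem_span ρ hPA (hgA h)) hQA)))
    (Submodule.smul_mem _ _ hQA)

end Span

section Main

variable {E V : Type} [AddCommGroup E] [Module (ZMod p) E] [DistribMulAction GQ E]
  [AddCommGroup V] [Module (ZMod p) V] [DistribMulAction GQ V]

theorem trace_of_charpoly {k M : Type*} [Field k] [AddCommGroup M] [Module k M]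
    [Module.Finite k M] (hr : finrank k M = 2) (f : Module.End k M) (t e : k)
    (h : LinearMap.charpoly f = X ^ 2 - C t * X + C e) : LinearMap.trace k M f = t := by
  let b := Module.finBasisOfFinrankEq k M hr
  rw [LinearMap.trace_eq_matrix_trace k b f, Matrix.trace_eq_neg_charpoly_coeff,
    LinearMap.charpoly_toMatrix, h, Fintype.card_fin]
  simp [coeff_X, coeff_C]

/-- the span of the image of an irreducible representation satisfying the Frobenius relations,
and its trace -/
theorem quad_facts (hp2 : p ≠ 2) (hdim : finrank (ZMod p) E = 2)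
    (hirr : ∀ W : Submodule (ZMod p) E, (∀ g : GQ, ∀ x ∈ W, g • x ∈ W) → W = ⊥ ∨ W = ⊤)
    (t : GQ → ZMod p)
    (ht : ∀ g, repZ p E g + chi p g • repZ p E g⁻¹ = t g • (1 : Module.End (ZMod p) E)) :
    Submodule.span (ZMod p) (Set.range (repZ p E)) = ⊤ ∧
      ∀ g, LinearMap.trace (ZMod p) E (repZ p E g) = t g := by
  have h2 : (2 : ZMod p) ≠ 0 := by
    intro h
    have h' : ((2 : ℕ) : ZMod p) = 0 := by exact_mod_cast h
    rw [ZMod.natCast_eq_zero_iff] at h'
    exact hp2 ((Nat.prime_dvd_prime_iff_eq hp.out Nat.prime_two).mp h')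
  have hfin : Module.Finite (ZMod p) E := Module.finite_of_finrank_eq_succ hdim
  have hnt : Nontrivial E := Module.nontrivial_of_finrank_pos (R := ZMod p) (by omega)
  have hns : ∃ g, ∀ c : ZMod p, repZ p E g ≠ c • (1 : Module.End (ZMod p) E) := by
    by_contra hcon
    push Not at hcon
    obtain ⟨x, hx⟩ := exists_ne (0 : E)
    rcases hirr (Submodule.span (ZMod p) {x}) (by
      intro g y hy
      obtain ⟨c, hc⟩ := hcon g
      have : g • y = c • y := by
        change repZ p E g y = _
        rw [hc]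
        rfl
      rw [this]
      exact Submodule.smul_mem _ _ hy) with h | h
    · rw [Submodule.span_singleton_eq_bot] at h
      exact hx h
    · have h3 := finrank_span_singleton (K := ZMod p) hx
      rw [h, finrank_top, hdim] at h3
      omega
  have htr : ∀ g, LinearMap.trace (ZMod p) E (repZ p E g) = t g := fun g =>
    trace_of_charpoly hdim _ (t g) (chi p g) (rankTwo_charpoly hdim (repZ p E) t (chi p) ht hns g)
  refine ⟨?_, htr⟩
  have hcc : repZ p E complexConjugation * repZ p E complexConjugation = 1 := by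
    rw [← map_mul, complexConjugation_mul_self, map_one]
  refine span_eq_top (repZ p E) h2 hdim (fun W hW => hirr W hW) hcc ?_
  rw [htr]
  have h3 := ht complexConjugation
  rw [complexConjugation_inv, chi_cc, neg_one_smul, add_neg_cancel] at h3
  obtain ⟨x, hx⟩ := exists_ne (0 : E)
  have h4 := congrArg (fun f : Module.End (ZMod p) E => f x) h3
  simp only [LinearMap.zero_apply, LinearMap.smul_apply, Module.End.one_apply] at h4
  exact (smul_eq_zero.mp h4.symm).resolve_right hx

/-- **The embedding**: an irreducible two-dimensional Galois module over `ZMod p` (`p` odd) embeds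
in every nonzero module satisfying the same relations at the Frobenius elements. -/
theorem exists_embedding_galois (hp2 : p ≠ 2) (hdim : finrank (ZMod p) E = 2) [Nontrivial V]
    (hirr : ∀ W : Submodule (ZMod p) E, (∀ g : GQ, ∀ x ∈ W, g • x ∈ W) → W = ⊥ ∨ W = ⊤)
    (KE KV : IntermediateField ℚ (AlgebraicClosure ℚ)) (hKE : FiniteDimensional ℚ KE)
    (hKV : FiniteDimensional ℚ KV) (hE : ∀ σ : GQ, (∀ x ∈ KE, σ x = x) → ∀ v : E, σ • v = v)
    (hV : ∀ σ : GQ, (∀ x ∈ KV, σ x = x) → ∀ v : V, σ • v = v)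
    (S : Finset ℕ) (hpS : p ∈ S) (a : ℕ → ZMod p)
    (frE : ∀ ℓ : ℕ, ℓ.Prime → ℓ ∉ S → ∀ A : ValuationSubring (AlgebraicClosure ℚ),
      A.LiesOverPrime ℓ → ∀ τ : GQ, A.IsFrobeniusAt τ ℓ → ∀ v : E,
        τ • τ • v - a ℓ • (τ • v) + (ℓ : ZMod p) • v = 0)
    (frV : ∀ ℓ : ℕ, ℓ.Prime → ℓ ∉ S → ∀ A : ValuationSubring (AlgebraicClosure ℚ),
      A.LiesOverPrime ℓ → ∀ τ : GQ, A.IsFrobeniusAt τ ℓ → ∀ v : V,
        τ • τ • v - a ℓ • (τ • v) + (ℓ : ZMod p) • v = 0) :
    (∃ ι : E →ₗ[ZMod p] V, Function.Injective ι ∧ ∀ (g : GQ) (x : E), ι (g • x) = g • ι x) ∧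
      Submodule.span (ZMod p) (Set.range (repZ p E)) = ⊤ ∧
      ∃ t : GQ → ZMod p, (∀ g, repZ p E g + chi p g • repZ p E g⁻¹ = t g • 1) ∧
        (∀ g, LinearMap.trace (ZMod p) E (repZ p E g) = t g) := by
  have := isAdicComplete_zmod (p := p)
  have h2 : (2 : ZMod p) ≠ 0 := by
    intro h
    have h' : ((2 : ℕ) : ZMod p) = 0 := by exact_mod_cast h
    rw [ZMod.natCast_eq_zero_iff] at h'
    exact hp2 ((Nat.prime_dvd_prime_iff_eq hp.out Nat.prime_two).mp h')
  have hcont : GaloisActionIsAdicContinuous (ZMod p) (repZ p (E × V)) := by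
    intro n
    have := hKE
    have := hKV
    refine ⟨KE ⊔ KV, IntermediateField.finiteDimensional_sup KE KV, fun σ hσ v => ?_⟩
    have h1 := hE σ (fun x hx => hσ x ((le_sup_left : KE ≤ KE ⊔ KV) hx)) v.1
    have h3 := hV σ (fun x hx => hσ x ((le_sup_right : KV ≤ KE ⊔ KV) hx)) v.2
    have : repZ p (E × V) σ v = v := Prod.ext h1 h3
    rw [this, sub_self]
    exact Submodule.zero_mem _
  have hrel := fun σ => exists_quad_relation (p := p) (O := ZMod p) p_mem_max (repZ p (E × V)) hcont S
    hpS a (by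
      intro ℓ hℓ hℓS A hA τ hτ
      refine LinearMap.ext fun v => Prod.ext ?_ ?_
      · have := frE ℓ hℓ hℓS A hA τ hτ v.1
        rw [sq]
        exact this
      · have := frV ℓ hℓ hℓS A hA τ hτ v.2
        rw [sq]
        exact this) σ
  choose t ht using hrel
  have htE : ∀ g, repZ p E g + chi p g • repZ p E g⁻¹ = t g • (1 : Module.End (ZMod p) E) := by
    intro g
    ext x
    exact congrArg (fun f : Module.End (ZMod p) (E × V) => (f (x, 0)).1) (ht g)
  have htV : ∀ g, repZ p V g + chi p g • repZ p V g⁻¹ = t g • (1 : Module.End (ZMod p) V) := by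
    intro g
    ext x
    exact congrArg (fun f : Module.End (ZMod p) (E × V) => (f (0, x)).2) (ht g)
  obtain ⟨hspan, htr⟩ := quad_facts hp2 hdim hirr t htE
  obtain ⟨ι, hι, hιg⟩ := exists_embedding (ρE := repZ p E) (ρV := repZ p V) (χ := chi p)
    (fun g => by rw [htr, htE]) (fun g => by rw [htr, htV]) h2 hspan hdim
  exact ⟨⟨ι, hι, hιg⟩, hspan, t, htE, htr⟩

end Main

end Fermat.Agent.LLv
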